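/-
GATE-E / RISK-4 PNEW-STAGE, leaf R4-G (g1), file 1 (helper15): **the stage machine of `GB/B8` on a
PRODUCT of two levels, with tracking of equivariant endomorphisms** (abstract; Mathlib +
`GB/B8/LevelStage` only).

helper49's `LevelStage.Stage.exists_next` removes one Taylor–Wiles prime from the level: a stage
`S₀ : P ↪ L0` (level `N`) gives a stage `S₁ : P ↪ L1` (level `N r`) with
`S₁.j y = res_δ (S₀.j y) − res (S₀.j (a y))`, `a = S₁.actP (X i₀)` a Hensel root.  All the hypotheses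
(`LevelAbs.Degen`, `LevelStage.Compat`) are equational, hence closed under PRODUCTS; running the
machine on `L0 × L0'` (e.g. `Hom(Γ₀(N p), 𝒪) × Hom(Γ₀(N), 𝒪)`) uses ONE pair of Hensel roots for both
factors, and every endomorphism `Φ` of the product level which commutes with the Hecke action and
with `res`, `res_δ` is carried along: `S₁.j ∘ Φ_P = Φ₁ ∘ S₁.j` (`next_comm`).

* `degenProd`, `pAct`, `compatProd` : products of degeneracy packages, actions, compatibilities;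
* `isLoc_pAct_iff` : the primary part of a product is the product of the primary parts;
* `locMapOf` : an equivariant linear map restricts to the primary parts;
* `next_comm`, `next_act_comm` : the tracking lemma for one step.
-/
import Mathlib
import Fermat.Agent.GB.B8.LevelStage

set_option autoImplicit false
set_option linter.unusedSectionVars false
set_option linter.style.haveILetI false

namespace Fermat.Agent.GE8.RaiseP.G1.PairAbs

open Fermat.Agent.GB.B8.LevelAbs Fermat.Agent.GB.B8.LevelStage Fermat.Agent.GB.B3.RealLevel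
open MvPolynomial

/-! ### products -/

section Prod

variable {O : Type*} [CommRing O] {r : O}
  {L0 L1 L0' L1' : Type*} [AddCommGroup L0] [AddCommGroup L1] [AddCommGroup L0']
  [AddCommGroup L1'] [Module O L0] [Module O L1] [Module O L0'] [Module O L1']

/-- **the product of two degeneracy packages** -/
def degenProd (D : Degen r L0 L1) (D' : Degen r L0' L1') : Degen r (L0 × L0') (L1 × L1') where
  res := D.res.prodMap D'.res
  resD := D.resD.prodMap D'.resD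
  cores := D.cores.prodMap D'.cores
  coresD := D.coresD.prodMap D'.coresD
  T := D.T.prodMap D'.T
  U := D.U.prodMap D'.U
  cores_res x := Prod.ext (D.cores_res x.1) (D'.cores_res x.2)
  coresD_resD x := Prod.ext (D.coresD_resD x.1) (D'.coresD_resD x.2)
  cores_resD x := Prod.ext (D.cores_resD x.1) (D'.cores_resD x.2)
  coresD_res x := Prod.ext (D.coresD_res x.1) (D'.coresD_res x.2)
  U_res x := Prod.ext (D.U_res x.1) (D'.U_res x.2)
  U_resD x := Prod.ext (D.U_resD x.1) (D'.U_resD x.2)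
  U_U_of_ker ν h1 h2 := Prod.ext
    (D.U_U_of_ker ν.1 (congrArg Prod.fst h1) (congrArg Prod.fst h2))
    (D'.U_U_of_ker ν.2 (congrArg Prod.snd h1) (congrArg Prod.snd h2))
  cores_U_of_ker ν h1 h2 := Prod.ext
    (D.cores_U_of_ker ν.1 (congrArg Prod.fst h1) (congrArg Prod.fst h2))
    (D'.cores_U_of_ker ν.2 (congrArg Prod.snd h1) (congrArg Prod.snd h2))
  coresD_U_of_ker ν h1 h2 := Prod.ext
    (D.coresD_U_of_ker ν.1 (congrArg Prod.fst h1) (congrArg Prod.fst h2))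
    (D'.coresD_U_of_ker ν.2 (congrArg Prod.snd h1) (congrArg Prod.snd h2))

@[simp] theorem degenProd_res (D : Degen r L0 L1) (D' : Degen r L0' L1') (x : L0 × L0') :
    (degenProd D D').res x = (D.res x.1, D'.res x.2) := rfl

@[simp] theorem degenProd_resD (D : Degen r L0 L1) (D' : Degen r L0' L1') (x : L0 × L0') :
    (degenProd D D').resD x = (D.resD x.1, D'.resD x.2) := rfl

end Prod

section PAct

variable {O : Type*} [CommRing O] {𝕋 : Type*} [CommRing 𝕋] [Algebra O 𝕋]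
  {M₁ M₂ : Type*} [AddCommGroup M₁] [Module O M₁] [AddCommGroup M₂] [Module O M₂]

/-- **the product of two Hecke actions** -/
noncomputable def pAct (a₁ : 𝕋 →ₐ[O] Module.End O M₁) (a₂ : 𝕋 →ₐ[O] Module.End O M₂) :
    𝕋 →ₐ[O] Module.End O (M₁ × M₂) :=
  (LinearMap.prodMapAlgHom O M₁ M₂).comp (a₁.prod a₂)

@[simp] theorem pAct_apply (a₁ : 𝕋 →ₐ[O] Module.End O M₁) (a₂ : 𝕋 →ₐ[O] Module.End O M₂) (t : 𝕋)
    (z : M₁ × M₂) : pAct a₁ a₂ t z = (a₁ t z.1, a₂ t z.2) := rfl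

/-- **the primary part of a product is the product of the primary parts** -/
theorem isLoc_pAct_iff (a₁ : 𝕋 →ₐ[O] Module.End O M₁) (a₂ : 𝕋 →ₐ[O] Module.End O M₂)
    (𝔪 : Ideal 𝕋) (z : M₁ × M₂) :
    IsLoc (pAct a₁ a₂) 𝔪 z ↔ IsLoc a₁ 𝔪 z.1 ∧ IsLoc a₂ 𝔪 z.2 := by
  constructor
  · intro h
    refine ⟨fun s hs => ?_, fun s hs => ?_⟩
    · obtain ⟨y, hy⟩ := h s hs
      exact ⟨y.1, congrArg Prod.fst hy⟩
    · obtain ⟨y, hy⟩ := h s hs
      exact ⟨y.2, congrArg Prod.snd hy⟩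
  · rintro ⟨h1, h2⟩ s hs
    obtain ⟨y1, hy1⟩ := h1 s hs
    obtain ⟨y2, hy2⟩ := h2 s hs
    exact ⟨(y1, y2), Prod.ext hy1 hy2⟩

end PAct

/-! ### the tracked endomorphisms of a product -/

section Endo

variable {O : Type*} [CommRing O]
  {X Y : Type*} [AddCommGroup X] [Module O X] [AddCommGroup Y] [Module O Y]

/-- `(x, y) ↦ (x, 0)` -/
def pr1L (O : Type*) [CommRing O] (X Y : Type*) [AddCommGroup X] [Module O X] [AddCommGroup Y]
    [Module O Y] : (X × Y) →ₗ[O] (X × Y) :=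
  (LinearMap.inl O X Y).comp (LinearMap.fst O X Y)

/-- `(x, y) ↦ (0, y)` -/
def pr2L (O : Type*) [CommRing O] (X Y : Type*) [AddCommGroup X] [Module O X] [AddCommGroup Y]
    [Module O Y] : (X × Y) →ₗ[O] (X × Y) :=
  (LinearMap.inr O X Y).comp (LinearMap.snd O X Y)

/-- `(x, y) ↦ (0, f x)` -/
def phiOf (f : X →ₗ[O] Y) : (X × Y) →ₗ[O] (X × Y) :=
  (LinearMap.inr O X Y).comp (f.comp (LinearMap.fst O X Y))

@[simp] theorem pr1L_apply (z : X × Y) : pr1L O X Y z = (z.1, 0) := rfl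

@[simp] theorem pr2L_apply (z : X × Y) : pr2L O X Y z = (0, z.2) := rfl

@[simp] theorem phiOf_apply (f : X →ₗ[O] Y) (z : X × Y) : phiOf f z = (0, f z.1) := rfl

variable {𝕋 : Type*} [CommRing 𝕋] [Algebra O 𝕋]
  (a₁ : 𝕋 →ₐ[O] Module.End O X) (a₂ : 𝕋 →ₐ[O] Module.End O Y)

theorem pr1L_pAct (t : 𝕋) (z : X × Y) :
    pr1L O X Y (pAct a₁ a₂ t z) = pAct a₁ a₂ t (pr1L O X Y z) :=
  Prod.ext rfl (map_zero (a₂ t)).symm

theorem pr2L_pAct (t : 𝕋) (z : X × Y) :
    pr2L O X Y (pAct a₁ a₂ t z) = pAct a₁ a₂ t (pr2L O X Y z) :=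
  Prod.ext (map_zero (a₁ t)).symm rfl

theorem phiOf_pAct (f : X →ₗ[O] Y) (hf : ∀ t x, f (a₁ t x) = a₂ t (f x)) (t : 𝕋) (z : X × Y) :
    phiOf f (pAct a₁ a₂ t z) = pAct a₁ a₂ t (phiOf f z) :=
  Prod.ext (map_zero (a₁ t)).symm (hf t z.1)

end Endo

section EndoDegen

variable {O : Type*} [CommRing O] {r : O}
  {L0 L1 L0' L1' : Type*} [AddCommGroup L0] [AddCommGroup L1] [AddCommGroup L0']
  [AddCommGroup L1'] [Module O L0] [Module O L1] [Module O L0'] [Module O L1']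
  (D : Degen r L0 L1) (D' : Degen r L0' L1')

theorem pr1L_res (x : L0 × L0') :
    pr1L O L1 L1' ((degenProd D D').res x) = (degenProd D D').res (pr1L O L0 L0' x) :=
  Prod.ext rfl (map_zero D'.res).symm

theorem pr1L_resD (x : L0 × L0') :
    pr1L O L1 L1' ((degenProd D D').resD x) = (degenProd D D').resD (pr1L O L0 L0' x) :=
  Prod.ext rfl (map_zero D'.resD).symm

theorem pr2L_res (x : L0 × L0') :
    pr2L O L1 L1' ((degenProd D D').res x) = (degenProd D D').res (pr2L O L0 L0' x) :=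
  Prod.ext (map_zero D.res).symm rfl

theorem pr2L_resD (x : L0 × L0') :
    pr2L O L1 L1' ((degenProd D D').resD x) = (degenProd D D').resD (pr2L O L0 L0' x) :=
  Prod.ext (map_zero D.resD).symm rfl

theorem phiOf_res (f0 : L0 →ₗ[O] L0') (f1 : L1 →ₗ[O] L1')
    (h : ∀ x, f1 (D.res x) = D'.res (f0 x)) (x : L0 × L0') :
    phiOf f1 ((degenProd D D').res x) = (degenProd D D').res (phiOf f0 x) :=
  Prod.ext (map_zero D.res).symm (h x.1)

theorem phiOf_resD (f0 : L0 →ₗ[O] L0') (f1 : L1 →ₗ[O] L1')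
    (h : ∀ x, f1 (D.resD x) = D'.resD (f0 x)) (x : L0 × L0') :
    phiOf f1 ((degenProd D D').resD x) = (degenProd D D').resD (phiOf f0 x) :=
  Prod.ext (map_zero D.resD).symm (h x.1)

end EndoDegen

/-! ### equivariance on the generators of a polynomial ring -/

section Gen

variable {O : Type*} [CommRing O] {σ : Type*}
  {L L' : Type*} [AddCommGroup L] [Module O L] [AddCommGroup L'] [Module O L']

theorem equivariant_of_X (act : MvPolynomial σ O →ₐ[O] Module.End O L)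
    (act' : MvPolynomial σ O →ₐ[O] Module.End O L') (Φ : L →ₗ[O] L')
    (h : ∀ s x, Φ (act (X s) x) = act' (X s) (Φ x)) (t : MvPolynomial σ O) (x : L) :
    Φ (act t x) = act' t (Φ x) := by
  induction t using MvPolynomial.induction_on generalizing x with
  | C c =>
    rw [← MvPolynomial.algebraMap_eq, AlgHom.commutes, AlgHom.commutes,
      Module.algebraMap_end_apply, Module.algebraMap_end_apply, map_smul]
  | add p q hp hq =>
    rw [map_add, map_add, LinearMap.add_apply, LinearMap.add_apply, map_add, hp, hq]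
  | mul_X p s hp =>
    rw [map_mul, map_mul, Module.End.mul_apply, Module.End.mul_apply, hp, h]

end Gen

/-! ### equivariant maps restrict to the primary parts -/

section LocMap

variable {O : Type} [CommRing O] {𝕋 : Type} [CommRing 𝕋] [Algebra O 𝕋]
  {L L' : Type*} [AddCommGroup L] [Module O L] [AddCommGroup L'] [Module O L']

theorem isLoc_map {act : 𝕋 →ₐ[O] Module.End O L} {act' : 𝕋 →ₐ[O] Module.End O L'}
    (Φ : L →ₗ[O] L') (hΦ : ∀ t x, Φ (act t x) = act' t (Φ x)) (𝔪 : Ideal 𝕋) {x : L}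
    (hx : IsLoc act 𝔪 x) : IsLoc act' 𝔪 (Φ x) := by
  intro s hs
  obtain ⟨y, hy⟩ := hx s hs
  exact ⟨Φ y, by rw [← hΦ, hy]⟩

/-- an equivariant linear map, restricted to the primary parts -/
def locMapOf {act : 𝕋 →ₐ[O] Module.End O L} {act' : 𝕋 →ₐ[O] Module.End O L'}
    (Φ : L →ₗ[O] L') (hΦ : ∀ t x, Φ (act t x) = act' t (Φ x)) (𝔪 : Ideal 𝕋) :
    locSub act 𝔪 →ₗ[O] locSub act' 𝔪 :=
  (Φ.comp (locSub act 𝔪).subtype).codRestrict (locSub act' 𝔪)
    (fun x => isLoc_map Φ hΦ 𝔪 x.2)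

@[simp] theorem coe_locMapOf {act : 𝕋 →ₐ[O] Module.End O L} {act' : 𝕋 →ₐ[O] Module.End O L'}
    (Φ : L →ₗ[O] L') (hΦ : ∀ t x, Φ (act t x) = act' t (Φ x)) (𝔪 : Ideal 𝕋)
    (x : locSub act 𝔪) : ((locMapOf Φ hΦ 𝔪 x : locSub act' 𝔪) : L') = Φ (x : L) := rfl

theorem locMapOf_act {act : 𝕋 →ₐ[O] Module.End O L} {act' : 𝕋 →ₐ[O] Module.End O L'}
    (Φ : L →ₗ[O] L') (hΦ : ∀ t x, Φ (act t x) = act' t (Φ x)) (𝔪 : Ideal 𝕋) (t : 𝕋)
    (x : locSub act 𝔪) :
    locMapOf Φ hΦ 𝔪 (locAct act 𝔪 t x) = locAct act' 𝔪 t (locMapOf Φ hΦ 𝔪 x) :=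
  Subtype.ext (hΦ t x)

end LocMap

/-! ### the product of two compatibilities -/

section CompatProd

variable {𝒪 : Type} [CommRing 𝒪] [IsLocalRing 𝒪] [IsNoetherianRing 𝒪]
  [IsAdicComplete (IsLocalRing.maximalIdeal 𝒪) 𝒪]
variable {σ : Type} [DecidableEq σ] {i₀ : σ}
variable {L0 L1 L0' L1' : Type*} [AddCommGroup L0] [AddCommGroup L1] [Module 𝒪 L0] [Module 𝒪 L1]
  [Module.Finite 𝒪 L0] [Module.Finite 𝒪 L1]
  [AddCommGroup L0'] [AddCommGroup L1'] [Module 𝒪 L0'] [Module 𝒪 L1']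
  [Module.Finite 𝒪 L0'] [Module.Finite 𝒪 L1']
variable {r : 𝒪} {D : Degen r L0 L1} {D' : Degen r L0' L1'}
variable {act0 : MvPolynomial σ 𝒪 →ₐ[𝒪] Module.End 𝒪 L0}
  {act1 : MvPolynomial σ 𝒪 →ₐ[𝒪] Module.End 𝒪 L1}
  {act0' : MvPolynomial σ 𝒪 →ₐ[𝒪] Module.End 𝒪 L0'}
  {act1' : MvPolynomial σ 𝒪 →ₐ[𝒪] Module.End 𝒪 L1'}

/-- **the product of two compatibilities** -/
theorem compatProd (hC : Compat i₀ D act0 act1) (hC' : Compat i₀ D' act0' act1') :
    Compat i₀ (degenProd D D') (pAct act0 act0') (pAct act1 act1') where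
  hT x := Prod.ext (hC.hT x.1) (hC'.hT x.2)
  hU ψ := Prod.ext (hC.hU ψ.1) (hC'.hU ψ.2)
  res i hi x := Prod.ext (hC.res i hi x.1) (hC'.res i hi x.2)
  resD i hi x := Prod.ext (hC.resD i hi x.1) (hC'.resD i hi x.2)
  cores i hi ψ := Prod.ext (hC.cores i hi ψ.1) (hC'.cores i hi ψ.2)
  coresD i hi ψ := Prod.ext (hC.coresD i hi ψ.1) (hC'.coresD i hi ψ.2)
  cores_U ψ := Prod.ext (hC.cores_U ψ.1) (hC'.cores_U ψ.2)
  coresD_U ψ := Prod.ext (hC.coresD_U ψ.1) (hC'.coresD_U ψ.2)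

end CompatProd

/-! ### the tracking lemma -/

section Track

variable {𝒪 : Type} [CommRing 𝒪]
variable {σ : Type} (i₀ : σ)
variable {L0 L1 : Type*} [AddCommGroup L0] [AddCommGroup L1] [Module 𝒪 L0] [Module 𝒪 L1]
variable {P : Type*} [AddCommGroup P] [Module 𝒪 P]
variable {r : 𝒪} (D : Degen r L0 L1)
variable {act0 : MvPolynomial σ 𝒪 →ₐ[𝒪] Module.End 𝒪 L0}
  {act1 : MvPolynomial σ 𝒪 →ₐ[𝒪] Module.End 𝒪 L1}
  {𝔪₀ 𝔪₁ : Ideal (MvPolynomial σ 𝒪)}

/-- **tracking through one step**: an endomorphism of the levels commuting with `res`, `res_δ`,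
whose restriction `ΦP` to the stage commutes with the Hecke action, is carried to the next stage. -/
theorem next_comm (S0 : Stage (MvPolynomial σ 𝒪) L0 act0 𝔪₀ P)
    (S1 : Stage (MvPolynomial σ 𝒪) L1 act1 𝔪₁ P)
    (ρ : MvPolynomial σ 𝒪 →ₐ[𝒪] MvPolynomial σ 𝒪) (hact : S1.actP = S0.actP.comp ρ)
    (hj : ∀ y, S1.j y = D.resD (S0.j y) - D.res (S0.j (S1.actP (X i₀) y)))
    (Φ0 : L0 →ₗ[𝒪] L0) (Φ1 : L1 →ₗ[𝒪] L1) (ΦP : P →ₗ[𝒪] P)
    (h0 : ∀ y, S0.j (ΦP y) = Φ0 (S0.j y))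
    (hP : ∀ t y, ΦP (S0.actP t y) = S0.actP t (ΦP y))
    (hres : ∀ x, Φ1 (D.res x) = D.res (Φ0 x)) (hresD : ∀ x, Φ1 (D.resD x) = D.resD (Φ0 x))
    (y : P) : S1.j (ΦP y) = Φ1 (S1.j y) := by
  rw [hj, hj, map_sub, hres, hresD, ← h0, ← h0, hact, AlgHom.comp_apply, hP]

/-- the restriction still commutes with the Hecke action of the next stage -/
theorem next_act_comm (S0 : Stage (MvPolynomial σ 𝒪) L0 act0 𝔪₀ P)
    (S1 : Stage (MvPolynomial σ 𝒪) L1 act1 𝔪₁ P)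
    (ρ : MvPolynomial σ 𝒪 →ₐ[𝒪] MvPolynomial σ 𝒪) (hact : S1.actP = S0.actP.comp ρ)
    (ΦP : P →ₗ[𝒪] P) (hP : ∀ t y, ΦP (S0.actP t y) = S0.actP t (ΦP y))
    (t : MvPolynomial σ 𝒪) (y : P) : ΦP (S1.actP t y) = S1.actP t (ΦP y) := by
  rw [hact, AlgHom.comp_apply, hP]

end Track

end Fermat.Agent.GE8.RaiseP.G1.PairAbs
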