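/-
GATE-E / RISK-4 PNEW-STAGE, leaf R4-G (g1), file 4 (helper15): **the two base equivalences and the
commuting squares out of a tracked stage of a product level** (abstract).

Input: a stage `S : P₀ ↪ X × Y` of a product level (`P₀` = the primary part of the product base level
`X0 × Y0`) which intertwines the projections `(x, y) ↦ (x, 0)`, `(0, y)` (output of
`PairIter.exists_stage_pair`).  Output: equivalences `eX : (X0)_𝔪₀ ≃ X_𝔪`, `eY : (Y0)_𝔪₀ ≃ Y_𝔪`,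
Hecke-equivariant up to the substitution `ρ`, and for every tracked `(x, y) ↦ (0, f x)` the square
`eY ∘ f0 = f ∘ eX`.
-/
import Mathlib
import Fermat.Agent.GB.B3.Base
import Fermat.Agent.GE8.RaiseP.G1.PairAbs

set_option autoImplicit false
set_option linter.unusedSectionVars false
set_option linter.style.haveILetI false
set_option linter.unusedVariables false

noncomputable section

namespace Fermat.Agent.GE8.RaiseP.G1.PairExtract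

open Fermat.Agent.GB.B8.LevelStage Fermat.Agent.GB.B3.RealLevel
open Fermat.Agent.GE8.RaiseP.G1.PairAbs

variable {𝒪 : Type} [CommRing 𝒪] {𝕋 : Type} [CommRing 𝕋] [Algebra 𝒪 𝕋]
  {X0 Y0 X Y : Type*} [AddCommGroup X0] [Module 𝒪 X0] [AddCommGroup Y0] [Module 𝒪 Y0]
  [AddCommGroup X] [Module 𝒪 X] [AddCommGroup Y] [Module 𝒪 Y]
  (a0 : 𝕋 →ₐ[𝒪] Module.End 𝒪 X0) (b0 : 𝕋 →ₐ[𝒪] Module.End 𝒪 Y0)
  (a : 𝕋 →ₐ[𝒪] Module.End 𝒪 X) (b : 𝕋 →ₐ[𝒪] Module.End 𝒪 Y) (𝔪₀ 𝔪 : Ideal 𝕋)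

theorem isLoc_zero {L : Type*} [AddCommGroup L] [Module 𝒪 L] (act : 𝕋 →ₐ[𝒪] Module.End 𝒪 L)
    (𝔫 : Ideal 𝕋) : IsLoc act 𝔫 (0 : L) := fun s _ => ⟨0, map_zero _⟩

/-- `x ↦ (x, 0)` on the primary parts -/
def inl0 : locSub a0 𝔪₀ →ₗ[𝒪] locSub (pAct a0 b0) 𝔪₀ :=
  ((LinearMap.inl 𝒪 X0 Y0).comp (locSub a0 𝔪₀).subtype).codRestrict _
    (fun x => (isLoc_pAct_iff a0 b0 𝔪₀ _).2 ⟨x.2, isLoc_zero b0 𝔪₀⟩)

/-- `y ↦ (0, y)` on the primary parts -/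
def inr0 : locSub b0 𝔪₀ →ₗ[𝒪] locSub (pAct a0 b0) 𝔪₀ :=
  ((LinearMap.inr 𝒪 X0 Y0).comp (locSub b0 𝔪₀).subtype).codRestrict _
    (fun y => (isLoc_pAct_iff a0 b0 𝔪₀ _).2 ⟨isLoc_zero a0 𝔪₀, y.2⟩)

@[simp] theorem coe_inl0 (x : locSub a0 𝔪₀) :
    ((inl0 a0 b0 𝔪₀ x : locSub (pAct a0 b0) 𝔪₀) : X0 × Y0) = ((x : X0), 0) := rfl

@[simp] theorem coe_inr0 (y : locSub b0 𝔪₀) :
    ((inr0 a0 b0 𝔪₀ y : locSub (pAct a0 b0) 𝔪₀) : X0 × Y0) = (0, (y : Y0)) := rfl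

theorem inl0_act (t : 𝕋) (x : locSub a0 𝔪₀) :
    inl0 a0 b0 𝔪₀ (locAct a0 𝔪₀ t x) = locAct (pAct a0 b0) 𝔪₀ t (inl0 a0 b0 𝔪₀ x) :=
  Subtype.ext (Prod.ext rfl (map_zero (b0 t)).symm)

theorem inr0_act (t : 𝕋) (y : locSub b0 𝔪₀) :
    inr0 a0 b0 𝔪₀ (locAct b0 𝔪₀ t y) = locAct (pAct a0 b0) 𝔪₀ t (inr0 a0 b0 𝔪₀ y) :=
  Subtype.ext (Prod.ext (map_zero (a0 t)).symm rfl)

section Stage

variable {a0 b0 a b 𝔪₀ 𝔪}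
variable (S : Stage 𝕋 (X × Y) (pAct a b) 𝔪 (locSub (pAct a0 b0) 𝔪₀)) (ρ : 𝕋 →ₐ[𝒪] 𝕋)
  (hact : S.actP = (locAct (pAct a0 b0) 𝔪₀).comp ρ)
  (t1 : ∀ y, S.j (locMapOf (pr1L 𝒪 X0 Y0) (fun t z => pr1L_pAct a0 b0 t z) 𝔪₀ y)
    = pr1L 𝒪 X Y (S.j y))
  (t2 : ∀ y, S.j (locMapOf (pr2L 𝒪 X0 Y0) (fun t z => pr2L_pAct a0 b0 t z) 𝔪₀ y)
    = pr2L 𝒪 X Y (S.j y))

include t1 in
theorem snd_j_inl0 (x : locSub a0 𝔪₀) : (S.j (inl0 a0 b0 𝔪₀ x)).2 = 0 := by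
  have h : locMapOf (pr1L 𝒪 X0 Y0) (fun t z => pr1L_pAct a0 b0 t z) 𝔪₀ (inl0 a0 b0 𝔪₀ x)
      = inl0 a0 b0 𝔪₀ x := Subtype.ext rfl
  have h1 := t1 (inl0 a0 b0 𝔪₀ x)
  rw [h] at h1
  exact congrArg Prod.snd h1

include t2 in
theorem fst_j_inr0 (y : locSub b0 𝔪₀) : (S.j (inr0 a0 b0 𝔪₀ y)).1 = 0 := by
  have h : locMapOf (pr2L 𝒪 X0 Y0) (fun t z => pr2L_pAct a0 b0 t z) 𝔪₀ (inr0 a0 b0 𝔪₀ y)
      = inr0 a0 b0 𝔪₀ y := Subtype.ext rfl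
  have h1 := t2 (inr0 a0 b0 𝔪₀ y)
  rw [h] at h1
  exact congrArg Prod.fst h1

/-- the first component of the stage embedding on `(X0)_𝔪₀` -/
def eXLin : locSub a0 𝔪₀ →ₗ[𝒪] Fermat.Agent.GB.B3.Base.locSub a 𝔪 :=
  ((LinearMap.fst 𝒪 X Y).comp (S.j.comp (inl0 a0 b0 𝔪₀))).codRestrict _
    (fun x => ((isLoc_pAct_iff a b 𝔪 _).1 ((S.range _).1 ⟨inl0 a0 b0 𝔪₀ x, rfl⟩)).1)

/-- the second component of the stage embedding on `(Y0)_𝔪₀` -/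
def eYLin : locSub b0 𝔪₀ →ₗ[𝒪] Fermat.Agent.GB.B3.Base.locSub b 𝔪 :=
  ((LinearMap.snd 𝒪 X Y).comp (S.j.comp (inr0 a0 b0 𝔪₀))).codRestrict _
    (fun y => ((isLoc_pAct_iff a b 𝔪 _).1 ((S.range _).1 ⟨inr0 a0 b0 𝔪₀ y, rfl⟩)).2)

@[simp] theorem coe_eXLin (x : locSub a0 𝔪₀) :
    ((eXLin S x : Fermat.Agent.GB.B3.Base.locSub a 𝔪) : X) = (S.j (inl0 a0 b0 𝔪₀ x)).1 := rfl

@[simp] theorem coe_eYLin (y : locSub b0 𝔪₀) :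
    ((eYLin S y : Fermat.Agent.GB.B3.Base.locSub b 𝔪) : Y) = (S.j (inr0 a0 b0 𝔪₀ y)).2 := rfl

include t1 in
theorem j_inl0 (x : locSub a0 𝔪₀) :
    S.j (inl0 a0 b0 𝔪₀ x) = (((eXLin S x : Fermat.Agent.GB.B3.Base.locSub a 𝔪) : X), 0) :=
  Prod.ext rfl (snd_j_inl0 S t1 x)

include t2 in
theorem j_inr0 (y : locSub b0 𝔪₀) :
    S.j (inr0 a0 b0 𝔪₀ y) = (0, ((eYLin S y : Fermat.Agent.GB.B3.Base.locSub b 𝔪) : Y)) :=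
  Prod.ext (fst_j_inr0 S t2 y) rfl

include t1 t2 in
theorem eXLin_bijective : Function.Bijective (eXLin S) := by
  constructor
  · intro x x' h
    have h1 : S.j (inl0 a0 b0 𝔪₀ x) = S.j (inl0 a0 b0 𝔪₀ x') := by
      rw [j_inl0 S t1, j_inl0 S t1, h]
    have h2 := S.inj h1
    exact Subtype.ext (congrArg (fun z : locSub (pAct a0 b0) 𝔪₀ => (z : X0 × Y0).1) h2)
  · intro z
    have hz : IsLoc (pAct a b) 𝔪 ((z : X), (0 : Y)) :=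
      (isLoc_pAct_iff a b 𝔪 _).2 ⟨z.2, isLoc_zero b 𝔪⟩
    obtain ⟨y, hy⟩ := (S.range _).2 hz
    -- the second component of `y` vanishes
    have h2 : S.j (locMapOf (pr2L 𝒪 X0 Y0) (fun t z => pr2L_pAct a0 b0 t z) 𝔪₀ y) = 0 := by
      rw [t2, hy]
      rfl
    have h3 : locMapOf (pr2L 𝒪 X0 Y0) (fun t z => pr2L_pAct a0 b0 t z) 𝔪₀ y = 0 :=
      S.inj (h2.trans (map_zero S.j).symm)
    have h4 : (y : X0 × Y0).2 = 0 :=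
      congrArg (fun z : locSub (pAct a0 b0) 𝔪₀ => (z : X0 × Y0).2) h3
    have hy1 : IsLoc a0 𝔪₀ (y : X0 × Y0).1 := ((isLoc_pAct_iff a0 b0 𝔪₀ _).1 y.2).1
    refine ⟨⟨(y : X0 × Y0).1, hy1⟩, Subtype.ext ?_⟩
    have h5 : inl0 a0 b0 𝔪₀ ⟨(y : X0 × Y0).1, hy1⟩ = y :=
      Subtype.ext (Prod.ext rfl h4.symm)
    rw [coe_eXLin, h5, hy]

include t1 t2 in
theorem eYLin_bijective : Function.Bijective (eYLin S) := by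
  constructor
  · intro y y' h
    have h1 : S.j (inr0 a0 b0 𝔪₀ y) = S.j (inr0 a0 b0 𝔪₀ y') := by
      rw [j_inr0 S t2, j_inr0 S t2, h]
    have h2 := S.inj h1
    exact Subtype.ext (congrArg (fun z : locSub (pAct a0 b0) 𝔪₀ => (z : X0 × Y0).2) h2)
  · intro z
    have hz : IsLoc (pAct a b) 𝔪 ((0 : X), (z : Y)) :=
      (isLoc_pAct_iff a b 𝔪 _).2 ⟨isLoc_zero a 𝔪, z.2⟩
    obtain ⟨y, hy⟩ := (S.range _).2 hz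
    have h2 : S.j (locMapOf (pr1L 𝒪 X0 Y0) (fun t z => pr1L_pAct a0 b0 t z) 𝔪₀ y) = 0 := by
      rw [t1, hy]
      rfl
    have h3 : locMapOf (pr1L 𝒪 X0 Y0) (fun t z => pr1L_pAct a0 b0 t z) 𝔪₀ y = 0 :=
      S.inj (h2.trans (map_zero S.j).symm)
    have h4 : (y : X0 × Y0).1 = 0 :=
      congrArg (fun z : locSub (pAct a0 b0) 𝔪₀ => (z : X0 × Y0).1) h3
    have hy2 : IsLoc b0 𝔪₀ (y : X0 × Y0).2 := ((isLoc_pAct_iff a0 b0 𝔪₀ _).1 y.2).2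
    refine ⟨⟨(y : X0 × Y0).2, hy2⟩, Subtype.ext ?_⟩
    have h5 : inr0 a0 b0 𝔪₀ ⟨(y : X0 × Y0).2, hy2⟩ = y :=
      Subtype.ext (Prod.ext h4.symm rfl)
    rw [coe_eYLin, h5, hy]

/-- **the base equivalence of the first factor** -/
def eX : locSub a0 𝔪₀ ≃ₗ[𝒪] Fermat.Agent.GB.B3.Base.locSub a 𝔪 :=
  LinearEquiv.ofBijective (eXLin S) (eXLin_bijective S t1 t2)

/-- **the base equivalence of the second factor** -/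
def eY : locSub b0 𝔪₀ ≃ₗ[𝒪] Fermat.Agent.GB.B3.Base.locSub b 𝔪 :=
  LinearEquiv.ofBijective (eYLin S) (eYLin_bijective S t1 t2)

theorem eX_apply (x : locSub a0 𝔪₀) : eX S t1 t2 x = eXLin S x := rfl

theorem eY_apply (y : locSub b0 𝔪₀) : eY S t1 t2 y = eYLin S y := rfl

include hact in
/-- equivariance of `eX` up to the substitution `ρ` -/
theorem eX_act (t : 𝕋) (x : locSub a0 𝔪₀) :
    eX S t1 t2 (locAct a0 𝔪₀ (ρ t) x)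
      = Fermat.Agent.GB.B3.Base.locSubAct a 𝔪 t (eX S t1 t2 x) := by
  apply Subtype.ext
  rw [eX_apply, coe_eXLin, inl0_act]
  have h1 : locAct (pAct a0 b0) 𝔪₀ (ρ t) (inl0 a0 b0 𝔪₀ x) = S.actP t (inl0 a0 b0 𝔪₀ x) := by
    rw [hact]
    rfl
  rw [h1, S.j_act]
  rfl

include hact in
/-- equivariance of `eY` up to the substitution `ρ` -/
theorem eY_act (t : 𝕋) (y : locSub b0 𝔪₀) :
    eY S t1 t2 (locAct b0 𝔪₀ (ρ t) y)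
      = Fermat.Agent.GB.B3.Base.locSubAct b 𝔪 t (eY S t1 t2 y) := by
  apply Subtype.ext
  rw [eY_apply, coe_eYLin, inr0_act]
  have h1 : locAct (pAct a0 b0) 𝔪₀ (ρ t) (inr0 a0 b0 𝔪₀ y) = S.actP t (inr0 a0 b0 𝔪₀ y) := by
    rw [hact]
    rfl
  rw [h1, S.j_act]
  rfl

include t1 in
/-- **the square** `eY ∘ f0 = f ∘ eX` for a tracked `(x, y) ↦ (0, f x)` -/
theorem square (f0 : X0 →ₗ[𝒪] Y0) (hf0 : ∀ t x, f0 (a0 t x) = b0 t (f0 x)) (f : X →ₗ[𝒪] Y)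
    (tΦ : ∀ y, S.j (locMapOf (phiOf f0) (fun t z => phiOf_pAct a0 b0 f0 hf0 t z) 𝔪₀ y)
      = phiOf f (S.j y)) (x : locSub a0 𝔪₀) :
    ((eY S t1 t2 (locMapOf f0 hf0 𝔪₀ x) : Fermat.Agent.GB.B3.Base.locSub b 𝔪) : Y)
      = f ((eX S t1 t2 x : Fermat.Agent.GB.B3.Base.locSub a 𝔪) : X) := by
  have h : locMapOf (phiOf f0) (fun t z => phiOf_pAct a0 b0 f0 hf0 t z) 𝔪₀ (inl0 a0 b0 𝔪₀ x)
      = inr0 a0 b0 𝔪₀ (locMapOf f0 hf0 𝔪₀ x) := Subtype.ext rfl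
  have h1 := tΦ (inl0 a0 b0 𝔪₀ x)
  rw [h, j_inl0 S t1] at h1
  rw [eY_apply, coe_eYLin, h1]
  rfl

end Stage

end Fermat.Agent.GE8.RaiseP.G1.PairExtract
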