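/-
GATE-E / RISK-4 PNEW-STAGE, leaf R4-G (g1), file 2 (helper15): **the `p`-transfers commute with the
degeneracy maps at another prime `r`** on `Hom(Γ₀(·), A)`.

`p ≠ r` primes, `p ∤ N r`.  helper42's `GE8/Deside/ResNew` has the `res` half
(`cores_resLe`, `coresD_resLe`, `wOp_resLe`: restriction to a deeper level commutes with the
`p`-transfers).  This file adds the `res_δ` half and packages both in the form used by the relative
stage machine (`PairIter`): the upper levels `N p r` and `N r p` are compared through helper42's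
divisibility-indexed restriction `resLe`, so no cast appears in any statement.

* `resLe_refl`, `resLe_resLe`, `resD_resLe` : calculus of `resLe`;
* `cores_resD_comm` : `cores_p^{N r} ∘ resLe ∘ res_{r,δ}^{N p} = res_{r,δ}^{N} ∘ cores_p^{N}` (Mackey,
  one double coset);
* `wOp_resD_comm` : the Atkin–Lehner operator `w_p` commutes with `res_{r,δ}`;
* `coresD_resD_comm` : the same for `cores_{p,δ}`;
* `coresE_res`, `coresE_resD`, `coresDE_res`, `coresDE_resD` : the four squares, for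
  `x : Hom(Γ₀(Np), A)` with `Np ∣ N p` (in the application `Np = N p`).

(helper41's `GE8/RaiseP/DegComm`, `DegCommGen` contain the same commutations in another spelling; the
two files crossed, this one is the spelling used by `PairIter`.)
-/
import Mathlib
import Fermat.Agent.GE8.Deside.ResNew

set_option autoImplicit false
set_option linter.unusedSectionVars false
set_option linter.unreachableTactic false
set_option linter.unusedTactic false

open scoped MatrixGroups
open CongruenceSubgroup Matrix Matrix.SpecialLinearGroup ModularCurve.Period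
open P2MW.S_ModularForm_heckeT_slash_eq_self_of_mem_Gamma0.ModularForm.HeckeSlashInvariance
open P2MW.S_ModularForm_heckeT_slash_eq_self_of_mem_Gamma0.ModularForm
open Fermat.Agent.S16_helper49
open Fermat.Agent.GM.Amalgam
open Fermat.Agent.GM.B
open Fermat.Agent.GE8.Deside.ResNew
open scoped OnePoint

namespace Fermat.Agent.GE8.RaiseP.G1.PairComm

/-! ### calculus of `resLe` -/

section Le

variable {A : Type*} [AddCommGroup A]

theorem resLe_refl {M : ℕ} (h : M ∣ M) (x : Additive (Gamma0 M) →+ A) : resLe A h x = x := by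
  refine AddMonoidHom.ext fun g => ?_
  obtain ⟨g, rfl⟩ : ∃ g' : Gamma0 M, Additive.ofMul g' = g := ⟨Additive.toMul g, rfl⟩
  rw [resLe_apply]
  rfl

theorem resLe_resLe {M₁ M₂ M₃ : ℕ} (h₁ : M₁ ∣ M₂) (h₂ : M₂ ∣ M₃)
    (x : Additive (Gamma0 M₁) →+ A) : resLe A h₂ (resLe A h₁ x) = resLe A (h₁.trans h₂) x := by
  refine AddMonoidHom.ext fun g => ?_
  obtain ⟨g, rfl⟩ : ∃ g' : Gamma0 M₃, Additive.ofMul g' = g := ⟨Additive.toMul g, rfl⟩
  rw [resLe_apply, resLe_apply, resLe_apply]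
  rfl

/-- `embR (δ g δ⁻¹) = δ · embR g · δ⁻¹` -/
theorem embR_degenDelta' {N q : ℕ} [Fact q.Prime] (g : Gamma0 (N * q)) :
    embR ((degenDelta N q g : Gamma0 N) : SL(2, ℤ)) = dlt q * embR (g : SL(2, ℤ)) * (dlt q)⁻¹ := by
  rw [eq_mul_inv_iff_mul_eq]
  exact (dlt_rel_degenDelta g).symm

/-- **`res_δ` commutes with the restriction to a deeper level** -/
theorem resD_resLe {M₁ M₂ r : ℕ} [Fact r.Prime] (h : M₁ ∣ M₂) (x : Additive (Gamma0 M₁) →+ A) :
    resD A M₂ r (resLe A h x) = resLe A (Nat.mul_dvd_mul_right h r) (resD A M₁ r x) := by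
  refine AddMonoidHom.ext fun g => ?_
  obtain ⟨g, rfl⟩ : ∃ g' : Gamma0 (M₂ * r), Additive.ofMul g' = g := ⟨Additive.toMul g, rfl⟩
  rw [resD_apply, resLe_apply, resLe_apply, resD_apply]
  congr 2
  apply Subtype.ext
  apply embR_injective
  show embR ((degenDelta M₂ r g : Gamma0 M₂) : SL(2, ℤ)) = embR ((degenDelta M₁ r _ : Gamma0 M₁) : SL(2, ℤ))
  rw [embR_degenDelta', embR_degenDelta']
  rfl

end Le

/-! ### `cores_p` commutes with `res_{r,δ}` -/

section Mackey

variable {N p r : ℕ} [Fact p.Prime] [Fact r.Prime] {A : Type*} [AddCommGroup A]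

theorem not_dvd_left (hpNr : ¬ p ∣ N * r) : ¬ p ∣ N := fun h => hpNr (Dvd.dvd.mul_right h r)

/-- the comparison of the two upper levels -/
theorem level_dvd (N p r : ℕ) : N * p * r ∣ N * r * p := dvd_of_eq (Nat.mul_right_comm N p r)

/-- the transversal of level `N r`, conjugated by `δ_r` into `Γ₀(N)` -/
noncomputable def gxD (hpNr : ¬ p ∣ N * r) (x : OnePoint (ZMod p)) : Gamma0 N :=
  degenDelta N r (rC (N * r) p (bez hpNr).1 (bez hpNr).2 (bez_spec hpNr) x)

/-- first system: `res_{r,δ}` at level `N p`, restriction to level `N r p`, transfer to `N r` -/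
noncomputable def sysUp (hpNr : ¬ p ∣ N * r) : CosetSys embR (Gamma0 (N * p)) (Gamma0 (N * r)) :=
  ((resDSys (N * p) r).comp (resLeSys (level_dvd N p r))).comp (coresSys' hpNr)

/-- second system: transfer to level `N`, then `res_{r,δ}` -/
noncomputable def sysDown (hpNr : ¬ p ∣ N * r) : CosetSys embR (Gamma0 (N * p)) (Gamma0 (N * r)) :=
  (coresSys' (not_dvd_left hpNr)).comp (resDSys N r)

theorem sysUp_a (hpNr : ¬ p ∣ N * r) (i : (Unit × Unit) × OnePoint (ZMod p)) :
    (sysUp hpNr).a i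
      = dlt r * embR ((rC (N * r) p (bez hpNr).1 (bez hpNr).2 (bez_spec hpNr) i.2 :
          Gamma0 (N * r)) : SL(2, ℤ)) := by
  obtain ⟨⟨u, u'⟩, x⟩ := i
  show ((resDSys (N * p) r).comp (resLeSys (level_dvd N p r))).a (u, u') * (coresSys' hpNr).a x = _
  have h1 : ((resDSys (N * p) r).comp (resLeSys (level_dvd N p r))).a (u, u') = dlt r * 1 := rfl
  have h3 : (coresSys' hpNr).a x
      = embR ((rC (N * r) p (bez hpNr).1 (bez hpNr).2 (bez_spec hpNr) x : Gamma0 (N * r)) :
          SL(2, ℤ)) := coresSys_a hpNr _ _ _ x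
  rw [h1, h3, mul_one]

theorem sysDown_a (hpNr : ¬ p ∣ N * r) (i : OnePoint (ZMod p) × Unit) :
    (sysDown hpNr).a i = (coresSys' (not_dvd_left hpNr)).a i.1 * dlt r := rfl

theorem sysDown_distinct (hpNr : ¬ p ∣ N * r) : (sysDown (N := N) (r := r) hpNr).Distinct := by
  rintro ⟨(y : OnePoint (ZMod p)), (u : Unit)⟩ ⟨(y' : OnePoint (ZMod p)), (u' : Unit)⟩ γ h
  have h0 : (coresSys' (not_dvd_left hpNr)).a y * dlt r
      = embR ((γ : Gamma0 (N * p)) : SL(2, ℤ)) * ((coresSys' (not_dvd_left hpNr)).a y' * dlt r) :=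
    (sysDown_a hpNr (y, u)).symm.trans (h.trans (congrArg
      (fun t => embR ((γ : Gamma0 (N * p)) : SL(2, ℤ)) * t) (sysDown_a hpNr (y', u'))))
  rw [← mul_assoc] at h0
  have h1 := mul_right_cancel h0
  have hy : y = y' := coresSys'_distinct (not_dvd_left hpNr) y y' γ h1
  subst hy
  rfl

theorem sysUp_distinct (hpNr : ¬ p ∣ N * r) : (sysUp (N := N) (r := r) hpNr).Distinct := by
  rintro ⟨⟨(u : Unit), (u' : Unit)⟩, (x : OnePoint (ZMod p))⟩
    ⟨⟨(v : Unit), (v' : Unit)⟩, (x' : OnePoint (ZMod p))⟩ γ h0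
  -- `g' = r_x r_{x'}⁻¹ ∈ Γ₀(N r)` satisfies `δ g' = γ δ`
  set gx := rC (N * r) p (bez hpNr).1 (bez hpNr).2 (bez_spec hpNr) x with hgx
  set gx' := rC (N * r) p (bez hpNr).1 (bez hpNr).2 (bez_spec hpNr) x' with hgx'
  have h : dlt r * embR ((gx : Gamma0 (N * r)) : SL(2, ℤ))
      = embR ((γ : Gamma0 (N * p)) : SL(2, ℤ)) * (dlt r * embR ((gx' : Gamma0 (N * r)) : SL(2, ℤ))) :=
    (sysUp_a hpNr ((u, u'), x)).symm.trans (h0.trans (congrArg
      (fun t => embR ((γ : Gamma0 (N * p)) : SL(2, ℤ)) * t) (sysUp_a hpNr ((v, v'), x'))))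
  have hrel : dlt r * embR (((gx * gx'⁻¹ : Gamma0 (N * r))) : SL(2, ℤ))
      = embR ((γ : Gamma0 (N * p)) : SL(2, ℤ)) * dlt r := by
    rw [Subgroup.coe_mul, Subgroup.coe_inv, map_mul, map_inv, ← mul_assoc, h]
    simp only [mul_assoc, mul_inv_cancel, mul_one]
  have hmem : (((gx * gx'⁻¹ : Gamma0 (N * r))) : SL(2, ℤ)) ∈ Gamma0 (N * p * r) :=
    mem_Gamma0_mul_of_dlt_rel _ _ γ.2 hrel
  have hmem' : (((gx * gx'⁻¹ : Gamma0 (N * r))) : SL(2, ℤ)) ∈ Gamma0 (N * r * p) := by
    rw [Nat.mul_right_comm N r p]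
    exact hmem
  have h3 : ∀ y : OnePoint (ZMod p), (coresSys' hpNr).a y
      = embR ((rC (N * r) p (bez hpNr).1 (bez hpNr).2 (bez_spec hpNr) y : Gamma0 (N * r)) :
          SL(2, ℤ)) := fun y => coresSys_a hpNr _ _ _ y
  have hx : x = x' := by
    refine coresSys'_distinct hpNr x x' ⟨_, hmem'⟩ ?_
    rw [h3, h3]
    show embR (gx : SL(2, ℤ)) = embR (((gx * gx'⁻¹ : Gamma0 (N * r))) : SL(2, ℤ)) * embR (gx' : SL(2, ℤ))
    rw [← map_mul, Subgroup.coe_mul, Subgroup.coe_inv, inv_mul_cancel_right]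
  subst hx
  rfl

/-- **`cores_p` commutes with `res_{r,δ}`** (Mackey: one double coset). -/
theorem cores_resD_comm (hpNr : ¬ p ∣ N * r) (ψ : Additive (Gamma0 (N * p)) →+ A) :
    cores A hpNr (resLe A (level_dvd N p r) (resD A (N * p) r ψ))
      = resD A N r (cores A (not_dvd_left hpNr) ψ) := by
  have hpN : ¬ p ∣ N := not_dvd_left hpNr
  have e1 : cores A hpNr (resLe A (level_dvd N p r) (resD A (N * p) r ψ))
      = (sysUp hpNr).op A ψ := by
    unfold sysUp cores resLe resD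
    rw [CosetSys.op_comp, CosetSys.op_comp]
  have e2 : resD A N r (cores A hpN ψ) = (sysDown hpNr).op A ψ := by
    unfold sysDown cores resD
    rw [CosetSys.op_comp]
  rw [e1, e2]
  symm
  refine CosetSys.op_eq_of_contained (sysUp hpNr) (sysDown hpNr) embR_injective
    (sysUp_distinct hpNr) (sysDown_distinct hpNr)
    (Fintype.card_congr ((Equiv.prodCongr (Equiv.prodUnique Unit Unit) (Equiv.refl _)).trans
      ((Equiv.punitProd _).trans (Equiv.prodPUnit _).symm)))
    (fun i : (Unit × Unit) × OnePoint (ZMod p) =>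
      (((coresSys' hpN).σ (gxD hpNr i.2) (∞ : OnePoint (ZMod p)) : OnePoint (ZMod p)), ()))
    1 (fun x => by rw [one_mul, mul_one])
    (fun i : (Unit × Unit) × OnePoint (ZMod p) =>
      ((coresSys' hpN).c (gxD hpNr i.2) (∞ : OnePoint (ZMod p)))⁻¹)
    ?_ ψ
  rintro ⟨⟨(u : Unit), (u' : Unit)⟩, (x : OnePoint (ZMod p))⟩
  have h2 := (coresSys' hpN).rel (gxD hpNr x) (∞ : OnePoint (ZMod p))
  rw [coresSys'_a_infty, one_mul] at h2
  have h4 : dlt r * embR ((rC (N * r) p (bez hpNr).1 (bez hpNr).2 (bez_spec hpNr) x :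
      Gamma0 (N * r)) : SL(2, ℤ)) = embR ((gxD hpNr x : Gamma0 N) : SL(2, ℤ)) * dlt r :=
    dlt_rel_degenDelta _
  refine (sysDown_a hpNr _).trans ?_
  refine Eq.trans ?_ (congrArg (fun t => 1 * embR (((((coresSys' hpN).c (gxD hpNr x)
    (∞ : OnePoint (ZMod p)))⁻¹ : Gamma0 (N * p)) : SL(2, ℤ))) * t)
    (sysUp_a hpNr ((u, u'), x)).symm)
  show (coresSys' hpN).a ((coresSys' hpN).σ (gxD hpNr x) (∞ : OnePoint (ZMod p))) * dlt r
    = 1 * embR (((((coresSys' hpN).c (gxD hpNr x) (∞ : OnePoint (ZMod p)))⁻¹ :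
        Gamma0 (N * p)) : SL(2, ℤ))) * (dlt r * embR ((rC (N * r) p (bez hpNr).1 (bez hpNr).2
          (bez_spec hpNr) x : Gamma0 (N * r)) : SL(2, ℤ)))
  rw [one_mul, Subgroup.coe_inv, map_inv, h4, ← mul_assoc, h2, inv_mul_cancel_left]

end Mackey

/-! ### the Atkin–Lehner operator `w_p` commutes with `res_{r,δ}` -/

section AL

variable {N p r : ℕ} [Fact p.Prime] [Fact r.Prime] {A : Type*} [AddCommGroup A]

theorem dlt_comm' {a b : ℕ} (ha : a ≠ 0) (hb : b ≠ 0) : dlt a * dlt b = dlt b * dlt a := by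
  ext i j
  fin_cases i <;> fin_cases j <;>
    simp [ha, hb, Matrix.mul_apply, Fin.sum_univ_two, mul_comm]

/-- the comparison element `(δ_r r₀' δ_r⁻¹) r₀⁻¹ ∈ Γ₀(N p)` of the two Atkin–Lehner matrices -/
theorem degenDelta_rZero_mul_inv_mem (hpNr : ¬ p ∣ N * r) :
    ((degenDelta N r (rZero hpNr) : Gamma0 N) : SL(2, ℤ))
        * ((rZero (not_dvd_left hpNr) : Gamma0 N) : SL(2, ℤ))⁻¹ ∈ Gamma0 (N * p) := by
  have hr : (r : ℤ) ≠ 0 := by exact_mod_cast (Fact.out : r.Prime).ne_zero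
  obtain ⟨-, -, h10, h11⟩ := degenDelta_entries (N := N) (q := r) (rZero hpNr)
  have e10 : ((degenDelta N r (rZero hpNr) : Gamma0 N) : SL(2, ℤ)) 1 0 = N := by
    have h := h10
    rw [rZero_coe] at h
    have h' : (r : ℤ) * ((degenDelta N r (rZero hpNr) : Gamma0 N) : SL(2, ℤ)) 1 0
        = (r : ℤ) * N := by
      rw [h]
      simp [repC]
      ring
    exact mul_left_cancel₀ hr h'
  have e11 : ((degenDelta N r (rZero hpNr) : Gamma0 N) : SL(2, ℤ)) 1 1
      = (bez hpNr).2 * p := by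
    rw [h11, rZero_coe]
    simp [repC]
  apply mem_Gamma0_of_dvd
  rw [lower_left_mul_inv, e10, e11, rZero_coe]
  refine ⟨(bez (not_dvd_left hpNr)).2 - (bez hpNr).2, ?_⟩
  simp [repC]
  ring

/-- **`w_p` commutes with `res_{r,δ}`** (levels `N p r` and `N r p` compared through `resLe`). -/
theorem wOp_resD_comm (hpNr : ¬ p ∣ N * r) (ψ : Additive (Gamma0 (N * p)) →+ A) :
    wOp hpNr A (resLe A (level_dvd N p r) (resD A (N * p) r ψ))
      = resLe A (level_dvd N p r) (resD A (N * p) r (wOp (not_dvd_left hpNr) A ψ)) := by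
  have hpN : ¬ p ∣ N := not_dvd_left hpNr
  have hp0 : p ≠ 0 := (Fact.out : p.Prime).ne_zero
  have hr0 : r ≠ 0 := (Fact.out : r.Prime).ne_zero
  unfold wOp resLe resD
  rw [← CosetSys.op_comp, ← CosetSys.op_comp, ← CosetSys.op_comp, ← CosetSys.op_comp]
  refine CosetSys.op_eq_of_equiv
    (((wSys hpN).comp (resDSys (N * p) r)).comp (resLeSys (level_dvd N p r)))
    (((resDSys (N * p) r).comp (resLeSys (level_dvd N p r))).comp (wSys hpNr)) embR_injective
    (Equiv.refl ((Unit × Unit) × Unit)) 1 (fun x => by rw [one_mul, mul_one])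
    (fun _ => ⟨_, degenDelta_rZero_mul_inv_mem hpNr⟩) ?_ ?_ ψ
  · rintro ⟨⟨(u : Unit), (u' : Unit)⟩, (u'' : Unit)⟩
    show (dlt r * 1) * wMat hpNr
      = 1 * embR (((degenDelta N r (rZero hpNr) : Gamma0 N) : SL(2, ℤ))
          * ((rZero hpN : Gamma0 N) : SL(2, ℤ))⁻¹) * ((wMat hpN * dlt r) * 1)
    have h4 : dlt r * embR ((rZero hpNr : Gamma0 (N * r)) : SL(2, ℤ))
        = embR ((degenDelta N r (rZero hpNr) : Gamma0 N) : SL(2, ℤ)) * dlt r :=
      dlt_rel_degenDelta _
    unfold wMat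
    rw [mul_one, mul_one, one_mul, map_mul, map_inv, ← mul_assoc, h4]
    simp only [mul_assoc, inv_mul_cancel_left]
    rw [dlt_comm' hr0 hp0]
  · intro g i
    rfl

/-- **`cores_{p,δ}` commutes with `res_{r,δ}`** -/
theorem coresD_resD_comm (hpNr : ¬ p ∣ N * r) (ψ : Additive (Gamma0 (N * p)) →+ A) :
    coresD A hpNr (resLe A (level_dvd N p r) (resD A (N * p) r ψ))
      = resD A N r (coresD A (not_dvd_left hpNr) ψ) := by
  rw [← cores_wOp hpNr, wOp_resD_comm hpNr, cores_resD_comm hpNr, cores_wOp]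

end AL

/-! ### the four squares, in the form used by the relative stage machine -/

section Squares

variable {N Np p r : ℕ} [Fact p.Prime] [Fact r.Prime] {A : Type*} [AddCommGroup A]

/-- `cores_p ∘ res_r = res_r ∘ cores_p` -/
theorem coresE_res (hpNr : ¬ p ∣ N * r) (h : Np ∣ N * p) (h' : Np * r ∣ N * r * p)
    (x : Additive (Gamma0 Np) →+ A) :
    cores A hpNr (resLe A h' (res A Np r x))
      = res A N r (cores A (not_dvd_left hpNr) (resLe A h x)) := by
  rw [← resLe_eq_res, ← resLe_eq_res, resLe_resLe,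
    ← cores_resLe (dvd_mul_right N r) hpNr (resLe A h x), resLe_resLe]

/-- `cores_p ∘ res_{r,δ} = res_{r,δ} ∘ cores_p` -/
theorem coresE_resD (hpNr : ¬ p ∣ N * r) (h : Np ∣ N * p) (h' : Np * r ∣ N * r * p)
    (x : Additive (Gamma0 Np) →+ A) :
    cores A hpNr (resLe A h' (resD A Np r x))
      = resD A N r (cores A (not_dvd_left hpNr) (resLe A h x)) := by
  rw [← cores_resD_comm hpNr (resLe A h x), resD_resLe, resLe_resLe]

/-- `cores_{p,δ} ∘ res_r = res_r ∘ cores_{p,δ}` -/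
theorem coresDE_res (hpNr : ¬ p ∣ N * r) (h : Np ∣ N * p) (h' : Np * r ∣ N * r * p)
    (x : Additive (Gamma0 Np) →+ A) :
    coresD A hpNr (resLe A h' (res A Np r x))
      = res A N r (coresD A (not_dvd_left hpNr) (resLe A h x)) := by
  rw [← resLe_eq_res, ← resLe_eq_res, resLe_resLe,
    ← coresD_resLe (dvd_mul_right N r) hpNr (resLe A h x), resLe_resLe]

/-- `cores_{p,δ} ∘ res_{r,δ} = res_{r,δ} ∘ cores_{p,δ}` -/
theorem coresDE_resD (hpNr : ¬ p ∣ N * r) (h : Np ∣ N * p) (h' : Np * r ∣ N * r * p)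
    (x : Additive (Gamma0 Np) →+ A) :
    coresD A hpNr (resLe A h' (resD A Np r x))
      = resD A N r (coresD A (not_dvd_left hpNr) (resLe A h x)) := by
  rw [← coresD_resD_comm hpNr (resLe A h x), resD_resLe, resLe_resLe]

end Squares

end Fermat.Agent.GE8.RaiseP.G1.PairComm
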