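/-
GATE-E / RISK-4 PNEW-STAGE, leaf R4-G (g1), file 3 (helper15): **removal of the Taylor–Wiles primes
from the PAIR of levels `(N p, N)`, compatibly with the two `p`-transfers.**

`LevelIter.exists_stage` (helper49) for the product level
`Hom(Γ₀(N p), 𝒪) × Hom(Γ₀(N), 𝒪)`, `N = M ∏_{s ∈ Q} pr s`, with the uniform Hecke action
`actN … (N p) × actN … N` of symbols away from `p`: the `ker lamBase`-primary part `P₀` of the
product at the base level `(M p, M)` is a stage of the product at level `(N p, N)` at `ker lamTop`,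
and the stage embedding intertwines the four endomorphisms
`(x, y) ↦ (x, 0)`, `(0, y)`, `(0, cores_p x)`, `(0, cores_{p,δ} x)` of the two levels.

* `coresL`, `coresDL` : `cores_p`, `cores_{p,δ}` as `𝒪`-linear maps out of `Hom(Γ₀(Np), 𝒪)`, `Np ∣ N p`;
* `cores_actN`, `coresD_actN` : they commute with the uniform Hecke action of symbols `≠ p`;
* `P0`, `pr1P`, `pr2P`, `phiAP`, `phiBP` : the base stage module and the four endomorphisms on it;
* `exists_stage_pair` : the iteration.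
-/
import Mathlib
import Fermat.Agent.GB.B8.LevelIter
import Fermat.Agent.GE8.RaiseP.G1.PairAbs
import Fermat.Agent.GE8.RaiseP.G1.PairComm

set_option autoImplicit false
set_option linter.unusedSectionVars false
set_option linter.style.haveILetI false

open scoped MatrixGroups
open CongruenceSubgroup
open Fermat.Agent.GM.B
open Fermat.Agent.GB.B8.LevelAbs Fermat.Agent.GB.B8.LevelGamma0 Fermat.Agent.GB.B8.LevelStage
  Fermat.Agent.GB.B8.LevelGen Fermat.Agent.GB.B8.LevelIter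
open Fermat.Agent.GB.B3.RealLevel
open Fermat.Agent.GE8.Deside.ResNew
open Fermat.Agent.GE8.RaiseP.G1.PairAbs Fermat.Agent.GE8.RaiseP.G1.PairComm

namespace Fermat.Agent.GE8.RaiseP.G1.PairIter

open MvPolynomial

/-! ### the `p`-transfers as linear maps -/

section Lin

variable (O : Type) [CommRing O] {N Np p : ℕ} [Fact p.Prime]

/-- `cores_p ∘ resLe` : `Hom(Γ₀(Np), O) → Hom(Γ₀(N), O)` for `Np ∣ N p` -/
noncomputable def coresL (h : Np ∣ N * p) (hpN : ¬ p ∣ N) :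
    (Additive (Gamma0 Np) →+ O) →ₗ[O] (Additive (Gamma0 N) →+ O) :=
  (opLin O (coresSys' hpN)).comp (opLin O (resLeSys h))

/-- `cores_{p,δ} ∘ resLe` : `Hom(Γ₀(Np), O) → Hom(Γ₀(N), O)` for `Np ∣ N p` -/
noncomputable def coresDL (h : Np ∣ N * p) (hpN : ¬ p ∣ N) :
    (Additive (Gamma0 Np) →+ O) →ₗ[O] (Additive (Gamma0 N) →+ O) :=
  (opLin O (coresDSys' hpN)).comp (opLin O (resLeSys h))

theorem coresL_apply (h : Np ∣ N * p) (hpN : ¬ p ∣ N) (x : Additive (Gamma0 Np) →+ O) :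
    coresL O h hpN x = cores O hpN (resLe O h x) := rfl

theorem coresDL_apply (h : Np ∣ N * p) (hpN : ¬ p ∣ N) (x : Additive (Gamma0 Np) →+ O) :
    coresDL O h hpN x = coresD O hpN (resLe O h x) := rfl

end Lin

/-! ### equivariance for the uniform Hecke action -/

section Equivariance

variable (O : Type) [CommRing O] {σ : Type} (pr : σ → ℕ) (hpr : ∀ s, (pr s).Prime)
  {p : ℕ} [Fact p.Prime] (hp : ∀ s, pr s ≠ p)

include hpr hp in
theorem not_dvd_mul_p {N : ℕ} (s : σ) (h : ¬ pr s ∣ N) : ¬ pr s ∣ N * p := by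
  intro hd
  rcases (Nat.Prime.dvd_mul (hpr s)).1 hd with h1 | h1
  · exact h h1
  · exact hp s ((Nat.prime_dvd_prime_iff_eq (hpr s) Fact.out).1 h1)

include hp in
/-- **`cores_p` commutes with the uniform Hecke action of the symbols `≠ p`** -/
theorem cores_actN {N : ℕ} (hpN : ¬ p ∣ N) (t : MvPolynomial σ O)
    (ψ : Additive (Gamma0 (N * p)) →+ O) :
    cores O hpN (actN O pr hpr (N * p) t ψ) = actN O pr hpr N t (cores O hpN ψ) := by
  refine equivariant_of_X (actN O pr hpr (N * p)) (actN O pr hpr N) (opLin O (coresSys' hpN))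
    (fun s x => ?_) t ψ
  haveI : Fact (pr s).Prime := ⟨hpr s⟩
  show cores O hpN (actN O pr hpr (N * p) (X s) x) = actN O pr hpr N (X s) (cores O hpN x)
  by_cases h : pr s ∣ N
  · rw [actN_X_of_dvd O pr hpr s h, actN_X_of_dvd O pr hpr s (Dvd.dvd.mul_right h p)]
    exact Fermat.Agent.GB.B8.LevelU.cores_cohU hpN h x
  · rw [actN_X_of_not_dvd O pr hpr s h,
      actN_X_of_not_dvd O pr hpr s (not_dvd_mul_p pr hpr hp s h)]
    exact cores_cohT hpN (not_dvd_mul_p pr hpr hp s h) x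

include hp in
/-- **`cores_{p,δ}` commutes with the uniform Hecke action of the symbols `≠ p`** -/
theorem coresD_actN {N : ℕ} (hpN : ¬ p ∣ N) (t : MvPolynomial σ O)
    (ψ : Additive (Gamma0 (N * p)) →+ O) :
    coresD O hpN (actN O pr hpr (N * p) t ψ) = actN O pr hpr N t (coresD O hpN ψ) := by
  refine equivariant_of_X (actN O pr hpr (N * p)) (actN O pr hpr N) (opLin O (coresDSys' hpN))
    (fun s x => ?_) t ψ
  haveI : Fact (pr s).Prime := ⟨hpr s⟩
  show coresD O hpN (actN O pr hpr (N * p) (X s) x) = actN O pr hpr N (X s) (coresD O hpN x)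
  by_cases h : pr s ∣ N
  · rw [actN_X_of_dvd O pr hpr s h, actN_X_of_dvd O pr hpr s (Dvd.dvd.mul_right h p)]
    exact Fermat.Agent.GB.B8.LevelU.coresD_cohU hpN h x
  · rw [actN_X_of_not_dvd O pr hpr s h,
      actN_X_of_not_dvd O pr hpr s (not_dvd_mul_p pr hpr hp s h)]
    exact Fermat.Agent.GM.B5.coresD_cohT hpN (not_dvd_mul_p pr hpr hp s h) x

include hp in
theorem coresL_actN {N : ℕ} (hpN : ¬ p ∣ N) (h : N * p ∣ N * p) (t : MvPolynomial σ O)
    (ψ : Additive (Gamma0 (N * p)) →+ O) :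
    coresL O h hpN (actN O pr hpr (N * p) t ψ) = actN O pr hpr N t (coresL O h hpN ψ) := by
  rw [coresL_apply, coresL_apply, resLe_refl, resLe_refl]
  exact cores_actN O pr hpr hp hpN t ψ

include hp in
theorem coresDL_actN {N : ℕ} (hpN : ¬ p ∣ N) (h : N * p ∣ N * p) (t : MvPolynomial σ O)
    (ψ : Additive (Gamma0 (N * p)) →+ O) :
    coresDL O h hpN (actN O pr hpr (N * p) t ψ) = actN O pr hpr N t (coresDL O h hpN ψ) := by
  rw [coresDL_apply, coresDL_apply, resLe_refl, resLe_refl]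
  exact coresD_actN O pr hpr hp hpN t ψ

end Equivariance

/-! ### the base stage and the tracked endomorphisms -/

section Base

variable (O : Type) [CommRing O] {σ : Type} (pr : σ → ℕ) (hpr : ∀ s, (pr s).Prime)
  (p : ℕ) [Fact p.Prime] (hp : ∀ s, pr s ≠ p)

/-- the Hecke action on the pair of levels `(Np, N)` -/
noncomputable def act2 (N Np : ℕ) : MvPolynomial σ O →ₐ[O]
    Module.End O ((Additive (Gamma0 Np) →+ O) × (Additive (Gamma0 N) →+ O)) :=
  pAct (actN O pr hpr Np) (actN O pr hpr N)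

variable {κ : Type} [Field κ] [Algebra O κ] (M : ℕ) (hpM : ¬ p ∣ M)
  (lamBase : MvPolynomial σ O →ₐ[O] κ)

/-- the base stage module: the `ker lamBase`-primary part of the pair of levels `(M p, M)` -/
abbrev P0 : Type :=
  locSub (act2 O pr hpr M (M * p)) (RingHom.ker (lamBase : MvPolynomial σ O →+* κ))

/-- `(x, y) ↦ (x, 0)` on the base stage module -/
noncomputable def pr1P : P0 O pr hpr p M lamBase →ₗ[O] P0 O pr hpr p M lamBase :=
  locMapOf (pr1L O _ _) (fun t z => pr1L_pAct _ _ t z) _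

/-- `(x, y) ↦ (0, y)` on the base stage module -/
noncomputable def pr2P : P0 O pr hpr p M lamBase →ₗ[O] P0 O pr hpr p M lamBase :=
  locMapOf (pr2L O _ _) (fun t z => pr2L_pAct _ _ t z) _

include hp in
/-- `(x, y) ↦ (0, cores_p x)` on the base stage module -/
noncomputable def phiAP : P0 O pr hpr p M lamBase →ₗ[O] P0 O pr hpr p M lamBase :=
  locMapOf (phiOf (coresL O (dvd_refl (M * p)) hpM))
    (fun t z => phiOf_pAct _ _ _ (fun t x => coresL_actN O pr hpr hp hpM _ t x) t z) _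

include hp in
/-- `(x, y) ↦ (0, cores_{p,δ} x)` on the base stage module -/
noncomputable def phiBP : P0 O pr hpr p M lamBase →ₗ[O] P0 O pr hpr p M lamBase :=
  locMapOf (phiOf (coresDL O (dvd_refl (M * p)) hpM))
    (fun t z => phiOf_pAct _ _ _ (fun t x => coresDL_actN O pr hpr hp hpM _ t x) t z) _

end Base

/-! ### the iteration -/

section Iter

variable {𝒪 : Type} [CommRing 𝒪] [IsLocalRing 𝒪] [IsNoetherianRing 𝒪]
  [IsAdicComplete (IsLocalRing.maximalIdeal 𝒪) 𝒪]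
variable {σ : Type} [DecidableEq σ] (pr : σ → ℕ) (hpr : ∀ s, (pr s).Prime)
variable {κ : Type} [Field κ] [Algebra 𝒪 κ]
variable (p : ℕ) [Fact p.Prime] (hp : ∀ s, pr s ≠ p)

set_option maxHeartbeats 1600000 in
include hp in
/-- **Removing the Taylor–Wiles primes from the pair of levels `(N p, N)`**, compatibly with the
projections and the two `p`-transfers. -/
theorem exists_stage_pair (hinj : Function.Injective pr)
    (hsurj : Function.Surjective (algebraMap 𝒪 κ)) (M : ℕ) [NeZero M] (hpM : ¬ p ∣ M)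
    (lamBase : MvPolynomial σ 𝒪 →ₐ[𝒪] κ) (α β : σ → 𝒪) (Q : Finset σ) :
    ∀ (N Np : ℕ) (hNp : Np = N * p) (hpN : ¬ p ∣ N) (lamTop : MvPolynomial σ 𝒪 →ₐ[𝒪] κ),
      N = M * ∏ s ∈ Q, pr s →
      (∀ s ∈ Q, ¬ pr s ∣ M) → (∀ s ∈ Q, TWCond pr lamBase lamTop α β s) →
      (∀ s, s ∉ Q → lamTop (X s) = lamBase (X s)) →
      ∃ (S : Stage (MvPolynomial σ 𝒪)
            ((Additive (Gamma0 Np) →+ 𝒪) × (Additive (Gamma0 N) →+ 𝒪))
            (act2 𝒪 pr hpr N Np) (RingHom.ker (lamTop : MvPolynomial σ 𝒪 →+* κ))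
            (P0 𝒪 pr hpr p M lamBase))
        (ρ : MvPolynomial σ 𝒪 →ₐ[𝒪] MvPolynomial σ 𝒪),
        S.actP = (locAct (act2 𝒪 pr hpr M (M * p))
            (RingHom.ker (lamBase : MvPolynomial σ 𝒪 →+* κ))).comp ρ ∧
        (∀ s, s ∉ Q → ρ (X s) = X s) ∧ lamBase.comp ρ = lamTop ∧
        (∀ y, S.j (pr1P 𝒪 pr hpr p M lamBase y) = pr1L 𝒪 _ _ (S.j y)) ∧
        (∀ y, S.j (pr2P 𝒪 pr hpr p M lamBase y) = pr2L 𝒪 _ _ (S.j y)) ∧
        (∀ y, S.j (phiAP 𝒪 pr hpr p hp M hpM lamBase y)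
          = phiOf (coresL 𝒪 (dvd_of_eq hNp) hpN) (S.j y)) ∧
        (∀ y, S.j (phiBP 𝒪 pr hpr p hp M hpM lamBase y)
          = phiOf (coresDL 𝒪 (dvd_of_eq hNp) hpN) (S.j y)) := by
  classical
  refine Finset.induction_on Q ?_ ?_
  · intro N Np hNp hpN lamTop hN _ _ haway
    rw [Finset.prod_empty, mul_one] at hN
    subst hN
    subst hNp
    have hlam : lamTop = lamBase :=
      MvPolynomial.algHom_ext fun s => haway s (Finset.notMem_empty s)
    subst hlam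
    exact ⟨Stage.base _ _, AlgHom.id 𝒪 _, rfl, fun _ _ => rfl, rfl, fun _ => rfl, fun _ => rfl,
      fun _ => rfl, fun _ => rfl⟩
  · intro s₀ Q' hs₀ IH N Np hNp hpN lamTop hN hQM hTW haway
    haveI : Fact (pr s₀).Prime := ⟨hpr s₀⟩
    have hN2 : N = (M * ∏ s ∈ Q', pr s) * pr s₀ := by
      rw [hN, Finset.prod_insert hs₀]
      ring
    clear hN
    subst hN2
    obtain rfl : Np = (M * ∏ s ∈ Q', pr s) * p * pr s₀ :=
      hNp.trans (Nat.mul_right_comm _ _ _)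
    have hqN' : ¬ pr s₀ ∣ M * ∏ s ∈ Q', pr s :=
      not_dvd_level pr hpr hinj hs₀ (hQM s₀ (Finset.mem_insert_self _ _))
    have hqNp' : ¬ pr s₀ ∣ M * (∏ s ∈ Q', pr s) * p := not_dvd_mul_p pr hpr hp s₀ hqN'
    have hpN' : ¬ p ∣ M * ∏ s ∈ Q', pr s := not_dvd_left hpN
    have h0 := hTW s₀ (Finset.mem_insert_self _ _)
    -- the middle character
    obtain ⟨lamMid, hmid0, hmid⟩ : ∃ lamMid : MvPolynomial σ 𝒪 →ₐ[𝒪] κ,
        lamMid (X s₀) = algebraMap 𝒪 κ (α s₀ + β s₀) ∧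
          ∀ s, s ≠ s₀ → lamMid (X s) = lamTop (X s) := by
      refine ⟨aeval (Function.update (fun s => lamTop (X s)) s₀
        (algebraMap 𝒪 κ (α s₀ + β s₀))), ?_, ?_⟩
      · rw [aeval_X, Function.update_self]
      · intro s hs
        rw [aeval_X, Function.update_of_ne hs]
    have hTW' : ∀ s ∈ Q', TWCond pr lamBase lamMid α β s := by
      intro s hs
      have hne : s ≠ s₀ := fun h => hs₀ (h ▸ hs)
      have h := hTW s (Finset.mem_insert_of_mem hs)
      exact ⟨h.base, (hmid s hne).trans h.top, h.prod, h.r_ne, h.ne, h.sq_α, h.sq_β⟩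
    have haway' : ∀ s, s ∉ Q' → lamMid (X s) = lamBase (X s) := by
      intro s hs
      by_cases h : s = s₀
      · subst h
        rw [hmid0]
        exact h0.base.symm
      · rw [hmid s h]
        refine haway s fun hmem => ?_
        rcases Finset.mem_insert.1 hmem with h1 | h1
        · exact h h1
        · exact hs h1
    obtain ⟨S', ρ', hact', hρ', hlam', t1, t2, tA, tB⟩ :=
      IH (M * ∏ s ∈ Q', pr s) (M * (∏ s ∈ Q', pr s) * p) rfl hpN' lamMid rfl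
        (fun s hs => hQM s (Finset.mem_insert_of_mem hs)) hTW' haway'
    have hR : Resid s₀ lamMid lamTop ((pr s₀ : ℕ) : 𝒪) (α s₀) (β s₀) :=
      ⟨fun i hi => (hmid i hi).symm, hmid0, h0.top, h0.prod, h0.r_ne, h0.ne, h0.sq_α, h0.sq_β⟩
    haveI hne1 : NeZero (M * ∏ s ∈ Q', pr s) :=
      ⟨Nat.mul_ne_zero (NeZero.ne M) (Finset.prod_ne_zero_iff.2 fun s _ => (hpr s).ne_zero)⟩
    haveI hne2 : NeZero ((M * ∏ s ∈ Q', pr s) * pr s₀) :=
      ⟨Nat.mul_ne_zero (NeZero.ne _) (hpr s₀).ne_zero⟩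
    haveI hne3 : NeZero (M * (∏ s ∈ Q', pr s) * p) :=
      ⟨Nat.mul_ne_zero (NeZero.ne _) (Fact.out : p.Prime).ne_zero⟩
    haveI hne4 : NeZero (M * (∏ s ∈ Q', pr s) * p * pr s₀) :=
      ⟨Nat.mul_ne_zero (NeZero.ne _) (hpr s₀).ne_zero⟩
    haveI := finite_hom 𝒪 (M * ∏ s ∈ Q', pr s)
    haveI := finite_hom 𝒪 ((M * ∏ s ∈ Q', pr s) * pr s₀)
    haveI := finite_hom 𝒪 (M * (∏ s ∈ Q', pr s) * p)
    haveI := finite_hom 𝒪 (M * (∏ s ∈ Q', pr s) * p * pr s₀)
    haveI := ker_isMaximal hsurj lamMid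
    haveI := ker_isMaximal hsurj lamTop
    have hC := compatProd (compat 𝒪 pr hpr hinj s₀ hqNp') (compat 𝒪 pr hpr hinj s₀ hqN')
    have hnext := Stage.exists_next hC hR S'
    obtain ⟨S1, ρ1, hact1, hρ1, hlam1, hj1, -⟩ := hnext
    -- the restrictions commute with the action of the previous stage
    have hP : ∀ (Φ : P0 𝒪 pr hpr p M lamBase →ₗ[𝒪] P0 𝒪 pr hpr p M lamBase),
        (∀ t y, Φ (locAct (act2 𝒪 pr hpr M (M * p))
            (RingHom.ker (lamBase : MvPolynomial σ 𝒪 →+* κ)) t y)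
          = locAct (act2 𝒪 pr hpr M (M * p))
            (RingHom.ker (lamBase : MvPolynomial σ 𝒪 →+* κ)) t (Φ y)) →
        ∀ t y, Φ (S'.actP t y) = S'.actP t (Φ y) := by
      intro Φ hΦ t y
      rw [hact', AlgHom.comp_apply, hΦ]
    refine ⟨S1, ρ'.comp ρ1, ?_, ?_, ?_, ?_, ?_, ?_, ?_⟩
    · rw [hact1, hact']
      rfl
    · intro s hs
      have hne : s ≠ s₀ := fun h => hs (h ▸ Finset.mem_insert_self _ _)
      have hnQ : s ∉ Q' := fun h => hs (Finset.mem_insert_of_mem h)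
      rw [AlgHom.comp_apply, hρ1 s hne, hρ' s hnQ]
    · rw [← AlgHom.comp_assoc, hlam', hlam1]
    · exact next_comm s₀ _ S' S1 ρ1 hact1 hj1 (pr1L 𝒪 _ _) (pr1L 𝒪 _ _) _ t1
        (hP _ (fun t y => locMapOf_act _ _ _ t y)) (pr1L_res _ _) (pr1L_resD _ _)
    · exact next_comm s₀ _ S' S1 ρ1 hact1 hj1 (pr2L 𝒪 _ _) (pr2L 𝒪 _ _) _ t2
        (hP _ (fun t y => locMapOf_act _ _ _ t y)) (pr2L_res _ _) (pr2L_resD _ _)
    · have hA1 : ∀ x : Additive (Gamma0 (M * (∏ s ∈ Q', pr s) * p)) →+ 𝒪,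
          coresL 𝒪 (dvd_of_eq hNp) hpN ((degen hqNp' 𝒪 𝒪).res x)
            = (degen hqN' 𝒪 𝒪).res (coresL 𝒪 (dvd_of_eq rfl) hpN' x) :=
        fun x => coresE_res hpN _ _ x
      have hA2 : ∀ x : Additive (Gamma0 (M * (∏ s ∈ Q', pr s) * p)) →+ 𝒪,
          coresL 𝒪 (dvd_of_eq hNp) hpN ((degen hqNp' 𝒪 𝒪).resD x)
            = (degen hqN' 𝒪 𝒪).resD (coresL 𝒪 (dvd_of_eq rfl) hpN' x) :=
        fun x => coresE_resD hpN _ _ x
      exact next_comm s₀ _ S' S1 ρ1 hact1 hj1 _ _ _ tA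
        (hP _ (fun t y => locMapOf_act _ _ _ t y))
        (phiOf_res (degen hqNp' 𝒪 𝒪) (degen hqN' 𝒪 𝒪) _ _ hA1)
        (phiOf_resD (degen hqNp' 𝒪 𝒪) (degen hqN' 𝒪 𝒪) _ _ hA2)
    · have hB1 : ∀ x : Additive (Gamma0 (M * (∏ s ∈ Q', pr s) * p)) →+ 𝒪,
          coresDL 𝒪 (dvd_of_eq hNp) hpN ((degen hqNp' 𝒪 𝒪).res x)
            = (degen hqN' 𝒪 𝒪).res (coresDL 𝒪 (dvd_of_eq rfl) hpN' x) :=
        fun x => coresDE_res hpN _ _ x
      have hB2 : ∀ x : Additive (Gamma0 (M * (∏ s ∈ Q', pr s) * p)) →+ 𝒪,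
          coresDL 𝒪 (dvd_of_eq hNp) hpN ((degen hqNp' 𝒪 𝒪).resD x)
            = (degen hqN' 𝒪 𝒪).resD (coresDL 𝒪 (dvd_of_eq rfl) hpN' x) :=
        fun x => coresDE_resD hpN _ _ x
      have hB3 := phiOf_res (degen hqNp' 𝒪 𝒪) (degen hqN' 𝒪 𝒪) _ _ hB1
      have hB4 := phiOf_resD (degen hqNp' 𝒪 𝒪) (degen hqN' 𝒪 𝒪) _ _ hB2
      have hB5 := hP (phiBP 𝒪 pr hpr p hp M hpM lamBase) (fun t y => locMapOf_act _ _ _ t y)
      exact next_comm s₀ (degenProd (degen hqNp' 𝒪 𝒪) (degen hqN' 𝒪 𝒪)) S' S1 ρ1 hact1 hj1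
        (phiOf (coresDL 𝒪 (dvd_of_eq rfl) hpN')) (phiOf (coresDL 𝒪 (dvd_of_eq hNp) hpN))
        (phiBP 𝒪 pr hpr p hp M hpM lamBase) tB hB5 hB3 hB4

end Iter

end Fermat.Agent.GE8.RaiseP.G1.PairIter
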