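/-
GATE-E / RISK-4 PNEW-STAGE, leaf R4-G (g1), file 5 (helper15): **the FIXED bases and the FIXED base
maps of the `p`-new levels.**

`P2/Main.exists_levelHom_primeData` / `P2/MainPlug.exists_kerData` give the two morphisms of levels
`φα φβ : LevelHom F G _` over the base maps `f0αE`, `f0βE` between the primary parts at the BIG level
`Nl p` resp. `Nl` (`Nl = M ∏_{s ∈ Q} pr s`, Taylor–Wiles symbols included).  `BaseB.NewSide` wants
them over base modules and base maps which do NOT depend on the Taylor–Wiles set: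

  `baseF = Hom(Γ₀(M p), O)_{ker lam'}`, `baseG = Hom(Γ₀(M), O)_{ker lam'}`,
  `f1 = cores_p`, `f2 = cores_{p,δ}`   (restricted to the primary parts).

* `coresq_resH`, `coresDq_resH`, `coresq_cast_resH`, `coresDq_cast_resH` : for a character with trivial
  target the transfers of `Γ_H` are the transfers of `Γ₀`;
* `baseF`, `baseG`, `f1`, `f2`, `coe_f1`, `coe_f2`, `f1_act`, `f2_act` : the fixed objects;
* `exists_pairEquiv` : `PairIter.exists_stage_pair` + `PairExtract` at the symbols `Sy`;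
* **`exists_baseEquiv_pair`** : the pair twin of `FreeLevelInst.exists_baseEquiv_M0` — equivalences
  `eF : M0 Sy 𝔪 Δs ψ ≃ baseF`, `eG : Hom(Γ_H(θ'₀), O)_𝔪 ≃ baseG`, equivariant up to ONE substitution
  `rename f ∘ ρ`, with the squares `eG ∘ f0αE = f1 ∘ eF`, `eG ∘ f0βE = f2 ∘ eF`;
* `mapBaseHom`, `castNHom` : transport of a morphism of levels along `MapBase.mapBase` /
  `FreeLevelInst.castN` (SAME `.f`, by `rfl`), so that the kernel of the pair does not move.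
-/
import Mathlib
import Fermat.Agent.GB.B7.UqCoresH
import Fermat.Agent.GE6.Inst.FreeLevelInst
import Fermat.Agent.GE8.RaiseP.P2.Main
import Fermat.Agent.GE8.RaiseP.G1.PairIter
import Fermat.Agent.GE8.RaiseP.G1.PairExtract

set_option autoImplicit false
set_option linter.unusedSectionVars false
set_option linter.unusedVariables false
set_option linter.style.haveILetI false

open scoped MatrixGroups
open CongruenceSubgroup

namespace Fermat.Agent.GE8.RaiseP.G1.PairBase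

open MvPolynomial
open Fermat.Agent.GM.B
open Fermat.Agent.GB.B3 Fermat.Agent.GB.B3.EisGamma0 Fermat.Agent.GB.B3.GamH
  Fermat.Agent.GB.B3.TWLevel Fermat.Agent.GB.B3.RealLevel
  Fermat.Agent.GB.B3.HeckeActH Fermat.Agent.GB.B3.Final Fermat.Agent.GB.B3.Tower
  Fermat.Agent.GB.B3.LocTransport
open Fermat.Agent.GB.B7.UqSq Fermat.Agent.GB.B7.UqEquiv
open Fermat.Agent.GB.B8.LevelIter Fermat.Agent.GB.B8.LevelGen Fermat.Agent.GB.B8.LevelGamma0
open Fermat.Agent.GE6.Inst.BaseIndep Fermat.Agent.GE6.Inst.MapBase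
  Fermat.Agent.GE6.Inst.FreeLevelInst
open Fermat.Agent.GE8.Deside.ResNew
open Fermat.Agent.GE8.RaiseP.NewLevel Fermat.Agent.GE8.RaiseP.P2.Main
open Fermat.Agent.GE8.RaiseP.G1.PairAbs Fermat.Agent.GE8.RaiseP.G1.PairComm
  Fermat.Agent.GE8.RaiseP.G1.PairIter Fermat.Agent.GE8.RaiseP.G1.PairExtract

/-! ### trivial target: the transfers of `Γ_H` are the transfers of `Γ₀` -/

section Trivial

variable {N q : ℕ} [Fact q.Prime] {Δ : Type} [CommGroup Δ] [Fintype Δ] [Subsingleton Δ]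
  (θ' : (ZMod N)ˣ →* Δ) (hqN : ¬ q ∣ N) {A : Type*} [AddCommGroup A]

theorem card_eq_one_of_subsingleton : Fintype.card Δ = 1 :=
  Fintype.card_eq_one_iff.2 ⟨1, fun _ => Subsingleton.elim _ _⟩

/-- for a trivial target the transfer `Hom(Γ_H, A) → Hom(Γ₀(N), A)` is injective -/
theorem coresH_injective {N : ℕ} (θ : (ZMod N)ˣ →* Δ) (rep : Δ → Gamma0 N)
    (hrep : ∀ δ, chi θ (rep δ) = δ) : Function.Injective (coresH θ rep hrep A) := by
  intro ψ₁ ψ₂ h
  have key : ∀ ψ : Additive (GammaH θ) →+ A, resH θ A (coresH θ rep hrep A ψ) = ψ := by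
    intro ψ
    rw [resH_coresH]
    have huniv : (Finset.univ : Finset Δ) = {1} :=
      Finset.eq_singleton_iff_unique_mem.2 ⟨Finset.mem_univ _, fun _ _ => Subsingleton.elim _ _⟩
    rw [huniv, Finset.sum_singleton]
    exact diaH_of_ker θ (rep 1) (Subsingleton.elim _ _) ψ
  rw [← key ψ₁, ← key ψ₂, h]

/-- **`cores_q^{Γ_H} ∘ res = res ∘ cores_q^{Γ₀}`** for a character with trivial target -/
theorem coresq_resH (x : Additive (Gamma0 (N * q)) →+ A) :
    coresq θ' hqN A (resH (thQ θ' q) A x) = resH θ' A (cores A hqN x) := by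
  have hrep₁ : ∀ δ : Δ, chi (thQ θ' q) ((fun _ => 1 : Δ → Gamma0 (N * q)) δ) = δ :=
    fun δ => Subsingleton.elim _ _
  have hrep₂ : ∀ δ : Δ, chi θ' ((fun _ => 1 : Δ → Gamma0 N) δ) = δ :=
    fun δ => Subsingleton.elim _ _
  apply coresH_injective θ' (fun _ => 1) hrep₂
  rw [coresH_coresq θ' (fun _ => 1) hrep₁ (fun _ => 1) hrep₂ hqN, coresH_resH, coresH_resH,
    card_eq_one_of_subsingleton, one_smul, one_smul]
  rfl

/-- **`cores_{q,δ}^{Γ_H} ∘ res = res ∘ cores_{q,δ}^{Γ₀}`** for a character with trivial target -/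
theorem coresDq_resH (x : Additive (Gamma0 (N * q)) →+ A) :
    coresDq θ' hqN A (resH (thQ θ' q) A x) = resH θ' A (coresD A hqN x) := by
  have hrep₁ : ∀ δ : Δ, chi (thQ θ' q) ((fun _ => 1 : Δ → Gamma0 (N * q)) δ) = δ :=
    fun δ => Subsingleton.elim _ _
  have hrep₂ : ∀ δ : Δ, chi θ' ((fun _ => 1 : Δ → Gamma0 N) δ) = δ :=
    fun δ => Subsingleton.elim _ _
  apply coresH_injective θ' (fun _ => 1) hrep₂
  rw [coresH_coresDq θ' (fun _ => 1) hrep₁ (fun _ => 1) hrep₂ hqN, coresH_resH, coresH_resH,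
    card_eq_one_of_subsingleton, one_smul, one_smul]
  rfl

/-- the same with the character at level `N q` given up to equality -/
theorem coresq_cast_resH (θ : (ZMod (N * q))ˣ →* Δ) (hθ : θ = thQ θ' q)
    (x : Additive (Gamma0 (N * q)) →+ A) :
    coresq θ' hqN A (castΘ hθ A (resH θ A x)) = resH θ' A (cores A hqN x) := by
  subst hθ
  rw [castΘ_rfl]
  exact coresq_resH θ' hqN x

theorem coresDq_cast_resH (θ : (ZMod (N * q))ˣ →* Δ) (hθ : θ = thQ θ' q)
    (x : Additive (Gamma0 (N * q)) →+ A) :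
    coresDq θ' hqN A (castΘ hθ A (resH θ A x)) = resH θ' A (coresD A hqN x) := by
  subst hθ
  rw [castΘ_rfl]
  exact coresDq_resH θ' hqN x

end Trivial

/-! ### the fixed base modules and base maps -/

section Fixed

variable (O : Type) [CommRing O] {σ' : Type} (pr' : σ' → ℕ) (hpr' : ∀ s, (pr' s).Prime)
  (p : ℕ) [Fact p.Prime] (hp' : ∀ s, pr' s ≠ p) (M : ℕ) (hpM : ¬ p ∣ M)
  {κ : Type} [Field κ] [Algebra O κ] (lam' : MvPolynomial σ' O →ₐ[O] κ)

/-- **the fixed base module at level `M p`**: `Hom(Γ₀(M p), O)_{ker lam'}` -/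
abbrev baseF : Type :=
  Fermat.Agent.GB.B8.LevelStage.locSub (actN O pr' hpr' (M * p))
    (RingHom.ker (lam' : MvPolynomial σ' O →+* κ))

/-- **the fixed base module at level `M`**: `Hom(Γ₀(M), O)_{ker lam'}` -/
abbrev baseG : Type :=
  Fermat.Agent.GB.B8.LevelStage.locSub (actN O pr' hpr' M)
    (RingHom.ker (lam' : MvPolynomial σ' O →+* κ))

/-- the Hecke action on `baseF` -/
noncomputable abbrev actBF : MvPolynomial σ' O →ₐ[O] Module.End O (baseF O pr' hpr' p M lam') :=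
  Fermat.Agent.GB.B8.LevelStage.locAct (actN O pr' hpr' (M * p))
    (RingHom.ker (lam' : MvPolynomial σ' O →+* κ))

/-- the Hecke action on `baseG` -/
noncomputable abbrev actBG : MvPolynomial σ' O →ₐ[O] Module.End O (baseG O pr' hpr' M lam') :=
  Fermat.Agent.GB.B8.LevelStage.locAct (actN O pr' hpr' M)
    (RingHom.ker (lam' : MvPolynomial σ' O →+* κ))

include hp' in
/-- **the fixed base map `cores_p`** on the primary parts -/
noncomputable def f1 : baseF O pr' hpr' p M lam' →ₗ[O] baseG O pr' hpr' M lam' :=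
  locMapOf (opLin O (coresSys' hpM)) (fun t x => cores_actN O pr' hpr' hp' hpM t x) _

include hp' in
/-- **the fixed base map `cores_{p,δ}`** on the primary parts -/
noncomputable def f2 : baseF O pr' hpr' p M lam' →ₗ[O] baseG O pr' hpr' M lam' :=
  locMapOf (opLin O (coresDSys' hpM)) (fun t x => coresD_actN O pr' hpr' hp' hpM t x) _

theorem coe_f1 (x : baseF O pr' hpr' p M lam') :
    ((f1 O pr' hpr' p hp' M hpM lam' x : baseG O pr' hpr' M lam') : Additive (Gamma0 M) →+ O)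
      = cores O hpM (x : Additive (Gamma0 (M * p)) →+ O) := rfl

theorem coe_f2 (x : baseF O pr' hpr' p M lam') :
    ((f2 O pr' hpr' p hp' M hpM lam' x : baseG O pr' hpr' M lam') : Additive (Gamma0 M) →+ O)
      = coresD O hpM (x : Additive (Gamma0 (M * p)) →+ O) := rfl

theorem f1_act (t : MvPolynomial σ' O) (x : baseF O pr' hpr' p M lam') :
    f1 O pr' hpr' p hp' M hpM lam' (actBF O pr' hpr' p M lam' t x)
      = actBG O pr' hpr' M lam' t (f1 O pr' hpr' p hp' M hpM lam' x) :=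
  locMapOf_act _ _ _ t x

theorem f2_act (t : MvPolynomial σ' O) (x : baseF O pr' hpr' p M lam') :
    f2 O pr' hpr' p hp' M hpM lam' (actBF O pr' hpr' p M lam' t x)
      = actBG O pr' hpr' M lam' t (f2 O pr' hpr' p hp' M hpM lam' x) :=
  locMapOf_act _ _ _ t x

end Fixed

/-! ### the pair of base equivalences at the level of `Γ₀`, symbols of the tower -/

section PairEquiv

variable {O : Type} [CommRing O] [IsLocalRing O] [IsNoetherianRing O]
  [IsAdicComplete (IsLocalRing.maximalIdeal O) O]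
variable {σ : Type} [DecidableEq σ] (pr : σ → ℕ) (hpr : ∀ s, (pr s).Prime)
variable {κ : Type} [Field κ] [Algebra O κ]
variable (p : ℕ) [Fact p.Prime] (hp : ∀ s, pr s ≠ p)

include hp in
/-- **`PairIter.exists_stage_pair` + `PairExtract`**: the two base equivalences at the level of `Γ₀`
with ONE substitution `ρ`, and the two squares.  The actions at the top level are given up to
equality (`a = actN … (N p)`, `b = actN … N`; e.g. helper80's `act0`). -/
theorem exists_pairEquiv (hinj : Function.Injective pr)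
    (hsurj : Function.Surjective (algebraMap O κ)) (M : ℕ) [NeZero M] (hpM : ¬ p ∣ M)
    (lamBase lamTop : MvPolynomial σ O →ₐ[O] κ) (α β : σ → O) (Q : Finset σ)
    (N : ℕ) (hpN : ¬ p ∣ N) (hN : N = M * ∏ s ∈ Q, pr s) (hQM : ∀ s ∈ Q, ¬ pr s ∣ M)
    (hTW : ∀ s ∈ Q, TWCond pr lamBase lamTop α β s)
    (haway : ∀ s, s ∉ Q → lamTop (X s) = lamBase (X s))
    (a : MvPolynomial σ O →ₐ[O] Module.End O (Additive (Gamma0 (N * p)) →+ O))
    (ha : actN O pr hpr (N * p) = a)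
    (b : MvPolynomial σ O →ₐ[O] Module.End O (Additive (Gamma0 N) →+ O))
    (hb : actN O pr hpr N = b) :
    ∃ (ρ : MvPolynomial σ O →ₐ[O] MvPolynomial σ O)
      (eX : Fermat.Agent.GB.B8.LevelStage.locSub (actN O pr hpr (M * p))
          (RingHom.ker (lamBase : MvPolynomial σ O →+* κ)) ≃ₗ[O]
        Base.locSub a (RingHom.ker (lamTop : MvPolynomial σ O →+* κ)))
      (eY : Fermat.Agent.GB.B8.LevelStage.locSub (actN O pr hpr M)
          (RingHom.ker (lamBase : MvPolynomial σ O →+* κ)) ≃ₗ[O]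
        Base.locSub b (RingHom.ker (lamTop : MvPolynomial σ O →+* κ))),
      (∀ t x, eX (Fermat.Agent.GB.B8.LevelStage.locAct (actN O pr hpr (M * p))
          (RingHom.ker (lamBase : MvPolynomial σ O →+* κ)) (ρ t) x)
        = Base.locSubAct a (RingHom.ker (lamTop : MvPolynomial σ O →+* κ)) t (eX x)) ∧
      (∀ t y, eY (Fermat.Agent.GB.B8.LevelStage.locAct (actN O pr hpr M)
          (RingHom.ker (lamBase : MvPolynomial σ O →+* κ)) (ρ t) y)
        = Base.locSubAct b (RingHom.ker (lamTop : MvPolynomial σ O →+* κ)) t (eY y)) ∧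
      (∀ s, s ∉ Q → ρ (X s) = X s) ∧ lamBase.comp ρ = lamTop ∧
      (∀ x, ((eY (f1 O pr hpr p hp M hpM lamBase x) :
            Base.locSub b (RingHom.ker (lamTop : MvPolynomial σ O →+* κ))) :
            Additive (Gamma0 N) →+ O)
          = cores O hpN ((eX x : Base.locSub a (RingHom.ker (lamTop : MvPolynomial σ O →+* κ))) :
              Additive (Gamma0 (N * p)) →+ O)) ∧
      (∀ x, ((eY (f2 O pr hpr p hp M hpM lamBase x) :
            Base.locSub b (RingHom.ker (lamTop : MvPolynomial σ O →+* κ))) :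
            Additive (Gamma0 N) →+ O)
          = coresD O hpN ((eX x : Base.locSub a (RingHom.ker (lamTop : MvPolynomial σ O →+* κ))) :
              Additive (Gamma0 (N * p)) →+ O)) := by
  subst ha
  subst hb
  have key := exists_stage_pair pr hpr p hp hinj hsurj M hpM lamBase α β Q N (N * p) rfl hpN
    lamTop hN hQM hTW haway
  obtain ⟨S, ρ, hact, hρ, hlam, t1, t2, tA, tB⟩ := key
  refine ⟨ρ, eX S t1 t2, eY S t1 t2, fun t x => eX_act S ρ hact t1 t2 t x,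
    fun t y => eY_act S ρ hact t1 t2 t y, hρ, hlam, fun x => ?_, fun x => ?_⟩
  · have hsq := square S t1 t2 (coresL O (dvd_refl (M * p)) hpM)
      (fun t x => coresL_actN O pr hpr hp hpM _ t x) (coresL O (dvd_of_eq rfl) hpN) tA x
    have h1 : f1 O pr hpr p hp M hpM lamBase x
        = locMapOf (coresL O (dvd_refl (M * p)) hpM)
            (fun t x => coresL_actN O pr hpr hp hpM _ t x) _ x := by
      apply Subtype.ext
      rw [coe_f1, coe_locMapOf, coresL_apply, resLe_refl]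
    rw [h1, hsq, coresL_apply, resLe_refl]
  · have hsq := square S t1 t2 (coresDL O (dvd_refl (M * p)) hpM)
      (fun t x => coresDL_actN O pr hpr hp hpM _ t x) (coresDL O (dvd_of_eq rfl) hpN) tB x
    have h1 : f2 O pr hpr p hp M hpM lamBase x
        = locMapOf (coresDL O (dvd_refl (M * p)) hpM)
            (fun t x => coresDL_actN O pr hpr hp hpM _ t x) _ x := by
      apply Subtype.ext
      rw [coe_f2, coe_locMapOf, coresDL_apply, resLe_refl]
    rw [h1, hsq, coresDL_apply, resLe_refl]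

end PairEquiv

/-! ### the pair twin of `FreeLevelInst.exists_baseEquiv_M0` -/

section Base

variable {Nl p : ℕ} [NeZero Nl] [NeZero (Nl * p)] [hpF : Fact p.Prime] (hpNl : ¬ p ∣ Nl)
variable (Sy : Symbols (Nl * p)) (hrN : ∀ j, Sy.r j ∣ Nl)
variable {O : Type} [CommRing O] [IsLocalRing O] [IsNoetherianRing O]
  [IsAdicComplete (IsLocalRing.maximalIdeal O) O]
variable {κ : Type} [Field κ] [Algebra O κ]
variable [DecidableEq Sy.ι₁] [DecidableEq Sy.ι₂]
variable (Δs : ℕ → Type) [∀ i, CommGroup (Δs i)] [∀ i, Fintype (Δs i)]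
  (ψ : ∀ i, (ZMod (Nl * p))ˣ →* Δs i) (ψ' : ∀ i, (ZMod Nl)ˣ →* Δs i)
  (hΘ0 : Theta Δs ψ 0 = thQ (Theta Δs ψ' 0) p)

include hpNl hrN in
/-- the symbols of the tower are away from `p` -/
theorem prSy_ne_p (s : Sy.ι₁ ⊕ Sy.ι₂) : prSy Sy s ≠ p := by
  rcases s with i | j
  · intro h
    have h' : Sy.ℓ i = p := h
    exact Sy.hℓN i (by rw [h']; exact Dvd.intro_left Nl rfl)
  · intro h
    have h' : Sy.r j = p := h
    exact hpNl (by rw [← h']; exact hrN j)

set_option maxHeartbeats 800000 in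
include hpNl hrN in
/-- the abstract form of `exists_baseEquiv_pair`: the Hecke action `aH` on `Hom(Γ_H(θ'₀), O)` at the
level `Nl`, the action `b` on `Hom(Γ₀(Nl), O)` and the two base maps `fα`, `fβ` are given through
their characterisations (so that the symbols `restrict Sy hrN` do not enter the proof). -/
theorem exists_baseEquiv_pair_abs (hℓ : Function.Injective Sy.ℓ) (hr : Function.Injective Sy.r)
    (hsurj : Function.Surjective (algebraMap O κ)) (M : ℕ) [NeZero M] (hpM : ¬ p ∣ M)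
    (lamBase lamTop : Sy.𝕋 O →ₐ[O] κ) (α β : Sy.ι₁ ⊕ Sy.ι₂ → O) (Q : Finset (Sy.ι₁ ⊕ Sy.ι₂))
    (hN : Nl = M * ∏ s ∈ Q, prSy Sy s) (hQM : ∀ s ∈ Q, ¬ prSy Sy s ∣ M)
    (hTW : ∀ s ∈ Q, TWCond (prSy Sy) lamBase lamTop α β s)
    (haway : ∀ s, s ∉ Q → lamTop (X s) = lamBase (X s))
    {σ' : Type} (pr' : σ' → ℕ) (hpr' : ∀ s, (pr' s).Prime) (hp' : ∀ s, pr' s ≠ p)
    (f : Sy.ι₁ ⊕ Sy.ι₂ → σ') (hf : ∀ s, pr' (f s) = prSy Sy s) (hfs : Function.Surjective f)
    (lam' : MvPolynomial σ' O →ₐ[O] κ)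
    (hlam : lamBase = lam'.comp (rename f : Sy.𝕋 O →ₐ[O] MvPolynomial σ' O))
    (aH : Sy.𝕋 O →ₐ[O] Module.End O (Additive (GammaH (Theta Δs ψ' 0)) →+ O))
    (b : Sy.𝕋 O →ₐ[O] Module.End O (Additive (Gamma0 Nl) →+ O))
    (hb : actN O (prSy Sy) (prSy_prime Sy) Nl = b)
    (hres : ∀ t φ, resH (Theta Δs ψ' 0) O (b t φ) = aH t (resH (Theta Δs ψ' 0) O φ))
    (fα fβ : M0 Sy (RingHom.ker (lamTop : Sy.𝕋 O →+* κ)) Δs ψ →
      ↥(Base.locSub aH (RingHom.ker (lamTop : Sy.𝕋 O →+* κ))))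
    (hfα : ∀ y, ((fα y : ↥(Base.locSub aH (RingHom.ker (lamTop : Sy.𝕋 O →+* κ)))) :
        Additive (GammaH (Theta Δs ψ' 0)) →+ O)
      = coresq (Theta Δs ψ' 0) hpNl O (castΘ hΘ0 O y.1))
    (hfβ : ∀ y, ((fβ y : ↥(Base.locSub aH (RingHom.ker (lamTop : Sy.𝕋 O →+* κ)))) :
        Additive (GammaH (Theta Δs ψ' 0)) →+ O)
      = coresDq (Theta Δs ψ' 0) hpNl O (castΘ hΘ0 O y.1)) :
    ∃ (ρ : Sy.𝕋 O →ₐ[O] Sy.𝕋 O)
      (eF : M0 Sy (RingHom.ker (lamTop : Sy.𝕋 O →+* κ)) Δs ψ ≃ₗ[O] baseF O pr' hpr' p M lam')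
      (eG : ↥(Base.locSub aH (RingHom.ker (lamTop : Sy.𝕋 O →+* κ))) ≃ₗ[O]
        baseG O pr' hpr' M lam'),
      (∀ t y, eF (act0 Sy (RingHom.ker (lamTop : Sy.𝕋 O →+* κ)) Δs ψ t y)
        = actBF O pr' hpr' p M lam' (rename f (ρ t)) (eF y)) ∧
      (∀ t y, eG (Base.locSubAct aH (RingHom.ker (lamTop : Sy.𝕋 O →+* κ)) t y)
        = actBG O pr' hpr' M lam' (rename f (ρ t)) (eG y)) ∧
      (∀ s, s ∉ Q → ρ (X s) = X s) ∧ lamBase.comp ρ = lamTop ∧
      (∀ y, eG (fα y) = f1 O pr' hpr' p hp' M hpM lam' (eF y)) ∧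
      (∀ y, eG (fβ y) = f2 O pr' hpr' p hp' M hpM lam' (eF y)) := by
  have hp : ∀ s, prSy Sy s ≠ p := prSy_ne_p hpNl Sy hrN
  have hpair := exists_pairEquiv (prSy Sy) (prSy_prime Sy) p hp (prSy_injective Sy hℓ hr) hsurj M
    hpM lamBase lamTop α β Q Nl hpNl hN hQM hTW haway (HeckeActH.act0 Sy O) (actN_eq_act0 Sy O)
    b hb
  obtain ⟨ρ, eX, eY, heX, heY, hρ, hlamρ, sqA, sqB⟩ := hpair
  -- the relabelling
  have hren : Function.Surjective
      (rename f : Sy.𝕋 O →ₐ[O] MvPolynomial σ' O) := rename_surjective f hfs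
  have hactF : actN O (prSy Sy) (prSy_prime Sy) (M * p)
      = (actN O pr' hpr' (M * p)).comp (rename f : Sy.𝕋 O →ₐ[O] MvPolynomial σ' O) :=
    actN_comp_rename O (prSy Sy) (prSy_prime Sy) pr' hpr' f hf (M * p)
  have hactG : actN O (prSy Sy) (prSy_prime Sy) M
      = (actN O pr' hpr' M).comp (rename f : Sy.𝕋 O →ₐ[O] MvPolynomial σ' O) :=
    actN_comp_rename O (prSy Sy) (prSy_prime Sy) pr' hpr' f hf M
  let e₂F := locSubEquivKer (rename f : Sy.𝕋 O →ₐ[O] MvPolynomial σ' O) hren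
    (actN O (prSy Sy) (prSy_prime Sy) (M * p)) (actN O pr' hpr' (M * p)) hactF lamBase lam' hlam
  let e₂G := locSubEquivKer (rename f : Sy.𝕋 O →ₐ[O] MvPolynomial σ' O) hren
    (actN O (prSy Sy) (prSy_prime Sy) M) (actN O pr' hpr' M) hactG lamBase lam' hlam
  -- the bases of the two towers
  let e₀F := BaseGamma0.baseEquiv Sy (RingHom.ker (lamTop : Sy.𝕋 O →+* κ)) (Theta Δs ψ 0)
  have hresE : ∀ t φ, BaseGamma0.resEquiv (Theta Δs ψ' 0) O (b t φ)
      = aH t (BaseGamma0.resEquiv (Theta Δs ψ' 0) O φ) := by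
    intro t φ
    rw [BaseGamma0.resEquiv_apply, BaseGamma0.resEquiv_apply]
    exact hres t φ
  let e₀G := BaseGamma0.locSubEquiv b aH (RingHom.ker (lamTop : Sy.𝕋 O →+* κ))
    (BaseGamma0.resEquiv (Theta Δs ψ' 0) O) hresE
  have hc₀F : ∀ x, ((e₀F x : M0 Sy (RingHom.ker (lamTop : Sy.𝕋 O →+* κ)) Δs ψ) :
        Additive (GammaH (Theta Δs ψ 0)) →+ O)
      = resH (Theta Δs ψ 0) O (x : Additive (Gamma0 (Nl * p)) →+ O) :=
    fun x => BaseGamma0.coe_baseEquiv Sy _ _ x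
  have hc₀G : ∀ x, ((e₀G x : ↥(Base.locSub aH (RingHom.ker (lamTop : Sy.𝕋 O →+* κ)))) :
        Additive (GammaH (Theta Δs ψ' 0)) →+ O)
      = resH (Theta Δs ψ' 0) O (x : Additive (Gamma0 Nl) →+ O) :=
    fun x => BaseGamma0.resEquiv_apply _ O _
  -- the squares at the level of `Γ_H`
  have hsqα : ∀ x, fα (e₀F (eX x))
      = e₀G (eY (f1 O (prSy Sy) (prSy_prime Sy) p hp M hpM lamBase x)) := by
    intro x
    apply Subtype.ext
    rw [hfα, hc₀F, hc₀G, sqA]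
    exact coresq_cast_resH (Theta Δs ψ' 0) hpNl (Theta Δs ψ 0) hΘ0 _
  have hsqβ : ∀ x, fβ (e₀F (eX x))
      = e₀G (eY (f2 O (prSy Sy) (prSy_prime Sy) p hp M hpM lamBase x)) := by
    intro x
    apply Subtype.ext
    rw [hfβ, hc₀F, hc₀G, sqB]
    exact coresDq_cast_resH (Theta Δs ψ' 0) hpNl (Theta Δs ψ 0) hΘ0 _
  -- the relabelling commutes with the fixed maps
  have hrel1 : ∀ x, e₂G (f1 O (prSy Sy) (prSy_prime Sy) p hp M hpM lamBase x)
      = f1 O pr' hpr' p hp' M hpM lam' (e₂F x) := fun x => Subtype.ext rfl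
  have hrel2 : ∀ x, e₂G (f2 O (prSy Sy) (prSy_prime Sy) p hp M hpM lamBase x)
      = f2 O pr' hpr' p hp' M hpM lam' (e₂F x) := fun x => Subtype.ext rfl
  refine ⟨ρ, (e₀F.symm.trans eX.symm).trans e₂F, (e₀G.symm.trans eY.symm).trans e₂G,
    fun t y => ?_, fun t y => ?_, hρ, hlamρ, fun y => ?_, fun y => ?_⟩
  · -- equivariance of `eF`
    have h0 : e₀F.symm (act0 Sy (RingHom.ker (lamTop : Sy.𝕋 O →+* κ)) Δs ψ t y)
        = Base.locSubAct (HeckeActH.act0 Sy O) (RingHom.ker (lamTop : Sy.𝕋 O →+* κ)) t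
            (e₀F.symm y) := by
      apply e₀F.injective
      rw [LinearEquiv.apply_symm_apply]
      show _ = BaseGamma0.baseEquiv Sy _ (Theta Δs ψ 0) _
      rw [BaseGamma0.baseEquiv_act]
      show _ = Base.locSubAct _ _ t (e₀F (e₀F.symm y))
      rw [LinearEquiv.apply_symm_apply]
    have h1 : eX.symm (Base.locSubAct (HeckeActH.act0 Sy O)
          (RingHom.ker (lamTop : Sy.𝕋 O →+* κ)) t (e₀F.symm y))
        = Fermat.Agent.GB.B8.LevelStage.locAct (actN O (prSy Sy) (prSy_prime Sy) (M * p))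
            (RingHom.ker (lamBase : Sy.𝕋 O →+* κ)) (ρ t) (eX.symm (e₀F.symm y)) := by
      apply eX.injective
      rw [LinearEquiv.apply_symm_apply, heX, LinearEquiv.apply_symm_apply]
    rw [LinearEquiv.trans_apply, LinearEquiv.trans_apply, h0, h1]
    exact locSubEquivKer_act _ hren _ _ hactF lamBase lam' hlam (ρ t) _
  · -- equivariance of `eG`
    have h0 : e₀G.symm (Base.locSubAct aH (RingHom.ker (lamTop : Sy.𝕋 O →+* κ)) t y)
        = Base.locSubAct b (RingHom.ker (lamTop : Sy.𝕋 O →+* κ)) t (e₀G.symm y) := by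
      apply e₀G.injective
      rw [LinearEquiv.apply_symm_apply]
      show _ = BaseGamma0.locSubEquiv b aH _ _ hresE _
      rw [BaseGamma0.locSubEquiv_act]
      show _ = Base.locSubAct _ _ t (e₀G (e₀G.symm y))
      rw [LinearEquiv.apply_symm_apply]
    have h1 : eY.symm (Base.locSubAct b (RingHom.ker (lamTop : Sy.𝕋 O →+* κ)) t (e₀G.symm y))
        = Fermat.Agent.GB.B8.LevelStage.locAct (actN O (prSy Sy) (prSy_prime Sy) M)
            (RingHom.ker (lamBase : Sy.𝕋 O →+* κ)) (ρ t) (eY.symm (e₀G.symm y)) := by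
      apply eY.injective
      rw [LinearEquiv.apply_symm_apply, heY, LinearEquiv.apply_symm_apply]
    rw [LinearEquiv.trans_apply, LinearEquiv.trans_apply, h0, h1]
    exact locSubEquivKer_act _ hren _ _ hactG lamBase lam' hlam (ρ t) _
  · -- the square of `α_*`
    have hy : y = e₀F (eX (eX.symm (e₀F.symm y))) := by
      rw [LinearEquiv.apply_symm_apply, LinearEquiv.apply_symm_apply]
    rw [LinearEquiv.trans_apply, LinearEquiv.trans_apply, LinearEquiv.trans_apply,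
      LinearEquiv.trans_apply, ← hrel1]
    congr 1
    apply eY.injective
    apply e₀G.injective
    rw [LinearEquiv.apply_symm_apply, LinearEquiv.apply_symm_apply, ← hsqα, ← hy]
  · -- the square of `β_*`
    have hy : y = e₀F (eX (eX.symm (e₀F.symm y))) := by
      rw [LinearEquiv.apply_symm_apply, LinearEquiv.apply_symm_apply]
    rw [LinearEquiv.trans_apply, LinearEquiv.trans_apply, LinearEquiv.trans_apply,
      LinearEquiv.trans_apply, ← hrel2]
    congr 1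
    apply eY.injective
    apply e₀G.injective
    rw [LinearEquiv.apply_symm_apply, LinearEquiv.apply_symm_apply, ← hsqβ, ← hy]

include hpNl in
/-- **THE PAIR OF BASE EQUIVALENCES.**  For Hecke symbols `Sy` at the level `Nl p`,
`Nl = M ∏_{s ∈ Q} pr s` (all `U`-primes dividing `Nl`): the bases of the two Taylor–Wiles towers at
the levels `Nl p` and `Nl` are the FIXED modules `baseF`, `baseG` at the levels `M p`, `M`, for ANY
surjective relabelling `f` of the symbols by their primes, equivariantly up to ONE substitution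
`rename f ∘ ρ`, and the base maps `f0αE`, `f0βE` become the FIXED maps `f1 = cores_p`,
`f2 = cores_{p,δ}`. -/
theorem exists_baseEquiv_pair (hℓ : Function.Injective Sy.ℓ) (hr : Function.Injective Sy.r)
    (hsurj : Function.Surjective (algebraMap O κ)) (M : ℕ) [NeZero M] (hpM : ¬ p ∣ M)
    (lamBase lamTop : Sy.𝕋 O →ₐ[O] κ) (α β : Sy.ι₁ ⊕ Sy.ι₂ → O) (Q : Finset (Sy.ι₁ ⊕ Sy.ι₂))
    (hN : Nl = M * ∏ s ∈ Q, prSy Sy s) (hQM : ∀ s ∈ Q, ¬ prSy Sy s ∣ M)
    (hTW : ∀ s ∈ Q, TWCond (prSy Sy) lamBase lamTop α β s)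
    (haway : ∀ s, s ∉ Q → lamTop (X s) = lamBase (X s))
    (𝔪 : Ideal (Sy.𝕋 O)) (h𝔪 : 𝔪 = RingHom.ker (lamTop : Sy.𝕋 O →+* κ))
    {σ' : Type} (pr' : σ' → ℕ) (hpr' : ∀ s, (pr' s).Prime) (hp' : ∀ s, pr' s ≠ p)
    (f : Sy.ι₁ ⊕ Sy.ι₂ → σ') (hf : ∀ s, pr' (f s) = prSy Sy s) (hfs : Function.Surjective f)
    (lam' : MvPolynomial σ' O →ₐ[O] κ)
    (hlam : lamBase = lam'.comp (rename f : Sy.𝕋 O →ₐ[O] MvPolynomial σ' O)) :
    ∃ (ρ : Sy.𝕋 O →ₐ[O] Sy.𝕋 O)
      (eF : M0 Sy 𝔪 Δs ψ ≃ₗ[O] baseF O pr' hpr' p M lam')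
      (eG : ↥(Base.locSub (actH (restrict Sy hrN) O (Theta Δs ψ' 0)) 𝔪) ≃ₗ[O]
        baseG O pr' hpr' M lam'),
      (∀ (t : Sy.𝕋 O) y, eF (act0 Sy 𝔪 Δs ψ t y)
        = actBF O pr' hpr' p M lam' (rename f (ρ t)) (eF y)) ∧
      (∀ (t : Sy.𝕋 O) y, eG (Base.locSubAct (actH (restrict Sy hrN) O (Theta Δs ψ' 0)) 𝔪 t y)
        = actBG O pr' hpr' M lam' (rename f (ρ t)) (eG y)) ∧
      (∀ s, s ∉ Q → ρ (X s) = X s) ∧ lamBase.comp ρ = lamTop ∧
      (∀ y, eG (f0αE hpNl Δs ψ' Sy hrN 𝔪 ψ hΘ0 y) = f1 O pr' hpr' p hp' M hpM lam' (eF y)) ∧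
      (∀ y, eG (f0βE hpNl Δs ψ' Sy hrN 𝔪 ψ hΘ0 y) = f2 O pr' hpr' p hp' M hpM lam' (eF y)) := by
  subst h𝔪
  exact exists_baseEquiv_pair_abs hpNl Sy hrN Δs ψ ψ' hΘ0 hℓ hr hsurj M hpM lamBase lamTop α β Q
    hN hQM hTW haway pr' hpr' hp' f hf hfs lam' hlam
    (actH (restrict Sy hrN) O (Theta Δs ψ' 0)) (HeckeActH.act0 (restrict Sy hrN) O)
    (actN_eq_act0 (restrict Sy hrN) O)
    (fun t φ => resH_act (restrict Sy hrN) O (Theta Δs ψ' 0) t φ)
    (fun y => f0αE hpNl Δs ψ' Sy hrN (RingHom.ker (lamTop : Sy.𝕋 O →+* κ)) ψ hΘ0 y)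
    (fun y => f0βE hpNl Δs ψ' Sy hrN (RingHom.ker (lamTop : Sy.𝕋 O →+* κ)) ψ hΘ0 y)
    (fun y => coe_f0αE hpNl Δs ψ' Sy hrN (RingHom.ker (lamTop : Sy.𝕋 O →+* κ)) ψ hΘ0 y)
    (fun y => coe_f0βE hpNl Δs ψ' Sy hrN (RingHom.ker (lamTop : Sy.𝕋 O →+* κ)) ψ hΘ0 y)

end Base

/-! ### transport of a morphism of levels to the fixed bases -/

section MapHom

variable {O : Type} [CommRing O] [IsLocalRing O] {𝕋 : Type} [CommRing 𝕋] [Algebra O 𝕋]
  {M0 : Type} [AddCommGroup M0] [Module O M0] {act0 : 𝕋 →ₐ[O] Module.End O M0}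
  {P0 : Type} [AddCommGroup P0] [Module O P0] {actP0 : 𝕋 →ₐ[O] Module.End O P0}
  {k : ℕ} {N : Fin k → ℕ} {F : FreeLevel O 𝕋 M0 act0 k N} {G : FreeLevel O 𝕋 P0 actP0 k N}
  {f0 : M0 →ₗ[O] P0}
  {M0' : Type} [AddCommGroup M0'] [Module O M0'] (act0' : 𝕋 →ₐ[O] Module.End O M0')
  (eF : M0 ≃ₗ[O] M0') (heF : ∀ t y, eF (act0 t y) = act0' t (eF y))
  {P0' : Type} [AddCommGroup P0'] [Module O P0'] (actP0' : 𝕋 →ₐ[O] Module.End O P0')
  (eG : P0 ≃ₗ[O] P0') (heG : ∀ t y, eG (actP0 t y) = actP0' t (eG y))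

/-- **transport of a morphism of levels along equivalences of the two base modules**
(`MapBase.mapBase` on both sides): the SAME map `f`, over the transported base map. -/
def mapBaseHom (φ : LevelHom F G f0) (f0' : M0' →ₗ[O] P0')
    (hsq : ∀ y, eG (f0 y) = f0' (eF y)) :
    LevelHom (mapBase F act0' eF heF) (mapBase G actP0' eG heG) f0' where
  f := φ.f
  f_D := φ.f_D
  f_act := φ.f_act
  f_π x := (congrArg eG (φ.f_π x)).trans (hsq (F.π x))

@[simp] theorem mapBaseHom_f (φ : LevelHom F G f0) (f0' : M0' →ₗ[O] P0')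
    (hsq : ∀ y, eG (f0 y) = f0' (eF y)) :
    (mapBaseHom act0' eF heF actP0' eG heG φ f0' hsq).f = φ.f := rfl

/-- the kernel of the pair of transported morphisms is the kernel of the pair -/
theorem ker_prod_mapBaseHom {f0₂ : M0 →ₗ[O] P0} (φ₁ : LevelHom F G f0) (φ₂ : LevelHom F G f0₂)
    (f0' f0₂' : M0' →ₗ[O] P0') (hsq₁ : ∀ y, eG (f0 y) = f0' (eF y))
    (hsq₂ : ∀ y, eG (f0₂ y) = f0₂' (eF y)) :
    LinearMap.ker (LevelHom.prod (mapBase G actP0' eG heG) (mapBase G actP0' eG heG)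
        (mapBaseHom act0' eF heF actP0' eG heG φ₁ f0' hsq₁)
        (mapBaseHom act0' eF heF actP0' eG heG φ₂ f0₂' hsq₂)).f
      = LinearMap.ker (LevelHom.prod G G φ₁ φ₂).f := rfl

/-- **transport of a morphism of levels along an equality of the diamond orders**
(`FreeLevelInst.castN` on both sides): the SAME map `f`. -/
def castNHom {N₂ : Fin k → ℕ} (h : N = N₂) (φ : LevelHom F G f0) :
    LevelHom (castN h F) (castN h G) f0 where
  f := φ.f
  f_D := φ.f_D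
  f_act := φ.f_act
  f_π := φ.f_π

@[simp] theorem castNHom_f {N₂ : Fin k → ℕ} (h : N = N₂) (φ : LevelHom F G f0) :
    (castNHom h φ).f = φ.f := rfl

theorem ker_prod_castNHom {N₂ : Fin k → ℕ} (h : N = N₂) {f0₂ : M0 →ₗ[O] P0}
    (φ₁ : LevelHom F G f0) (φ₂ : LevelHom F G f0₂) :
    LinearMap.ker (LevelHom.prod (castN h G) (castN h G) (castNHom h φ₁) (castNHom h φ₂)).f
      = LinearMap.ker (LevelHom.prod G G φ₁ φ₂).f := rfl

end MapHom

/-! ### the one-call form -/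

section OneCall

variable {Nl p : ℕ} [NeZero Nl] [NeZero (Nl * p)] [hpF : Fact p.Prime] (hpNl : ¬ p ∣ Nl)
variable (Sy : Symbols (Nl * p)) (hrN : ∀ j, Sy.r j ∣ Nl)
variable {O : Type} [CommRing O] [IsLocalRing O] [IsNoetherianRing O]
  [IsAdicComplete (IsLocalRing.maximalIdeal O) O]
variable {κ : Type} [Field κ] [Algebra O κ]
variable [DecidableEq Sy.ι₁] [DecidableEq Sy.ι₂]
variable (Δs : ℕ → Type) [∀ i, CommGroup (Δs i)] [∀ i, Fintype (Δs i)]
  (ψ : ∀ i, (ZMod (Nl * p))ˣ →* Δs i) (ψ' : ∀ i, (ZMod Nl)ˣ →* Δs i)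
  (hΘ0 : Theta Δs ψ 0 = thQ (Theta Δs ψ' 0) p)

/-- the Hecke action of the symbols of the tower on the fixed base `baseF`: the substitution `ρ`,
then the relabelling by primes -/
noncomputable abbrev actFix {σ' : Type} (pr' : σ' → ℕ) (hpr' : ∀ s, (pr' s).Prime) (M : ℕ)
    (lam' : MvPolynomial σ' O →ₐ[O] κ) (f : Sy.ι₁ ⊕ Sy.ι₂ → σ') (ρ : Sy.𝕋 O →ₐ[O] Sy.𝕋 O) :
    Sy.𝕋 O →ₐ[O] Module.End O (baseF O pr' hpr' p M lam') :=
  (actBF O pr' hpr' p M lam').comp
    ((rename f : Sy.𝕋 O →ₐ[O] MvPolynomial σ' O).comp ρ)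

/-- the same on `baseG` -/
noncomputable abbrev actFixG {σ' : Type} (pr' : σ' → ℕ) (hpr' : ∀ s, (pr' s).Prime) (M : ℕ)
    (lam' : MvPolynomial σ' O →ₐ[O] κ) (f : Sy.ι₁ ⊕ Sy.ι₂ → σ') (ρ : Sy.𝕋 O →ₐ[O] Sy.𝕋 O) :
    Sy.𝕋 O →ₐ[O] Module.End O (baseG O pr' hpr' M lam') :=
  (actBG O pr' hpr' M lam').comp
    ((rename f : Sy.𝕋 O →ₐ[O] MvPolynomial σ' O).comp ρ)

include hpNl in
/-- **(g1), ONE CALL.**  ANY pair of morphisms of levels `φα`, `φβ` over the base maps `f0αE`, `f0βE`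
of `P2/Main` (e.g. the output of `Main.exists_levelHom_primeData` / `MainPlug.exists_kerData`) is a
pair of morphisms of levels over the FIXED base maps `f1 = cores_p`, `f2 = cores_{p,δ}` between the
FIXED bases `baseF`, `baseG`: SAME modules, diamonds, Hecke actions, SAME maps (`ΦA.f = φα.f`,
`ΦB.f = φβ.f`), only the projections are composed with the base equivalences `eF`, `eG`. -/
theorem exists_levelHom_fixedBase (hℓ : Function.Injective Sy.ℓ) (hr : Function.Injective Sy.r)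
    (hsurj : Function.Surjective (algebraMap O κ)) (M : ℕ) [NeZero M] (hpM : ¬ p ∣ M)
    (lamBase lamTop : Sy.𝕋 O →ₐ[O] κ) (α β : Sy.ι₁ ⊕ Sy.ι₂ → O) (Q : Finset (Sy.ι₁ ⊕ Sy.ι₂))
    (hN : Nl = M * ∏ s ∈ Q, prSy Sy s) (hQM : ∀ s ∈ Q, ¬ prSy Sy s ∣ M)
    (hTW : ∀ s ∈ Q, TWCond (prSy Sy) lamBase lamTop α β s)
    (haway : ∀ s, s ∉ Q → lamTop (X s) = lamBase (X s))
    (𝔪 : Ideal (Sy.𝕋 O)) (h𝔪 : 𝔪 = RingHom.ker (lamTop : Sy.𝕋 O →+* κ))
    {σ' : Type} (pr' : σ' → ℕ) (hpr' : ∀ s, (pr' s).Prime) (hp' : ∀ s, pr' s ≠ p)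
    (f : Sy.ι₁ ⊕ Sy.ι₂ → σ') (hf : ∀ s, pr' (f s) = prSy Sy s) (hfs : Function.Surjective f)
    (lam' : MvPolynomial σ' O →ₐ[O] κ)
    (hlam : lamBase = lam'.comp (rename f : Sy.𝕋 O →ₐ[O] MvPolynomial σ' O))
    {k : ℕ} {Nk : Fin k → ℕ}
    (F : FreeLevel O (Sy.𝕋 O) (M0 Sy 𝔪 Δs ψ) (act0 Sy 𝔪 Δs ψ) k Nk)
    (G : FreeLevel O (Sy.𝕋 O) (Base.locSub (actH (restrict Sy hrN) O (Theta Δs ψ' 0)) 𝔪)
      (Base.locSubAct (actH (restrict Sy hrN) O (Theta Δs ψ' 0)) 𝔪) k Nk)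
    (φα : LevelHom F G (f0αE hpNl Δs ψ' Sy hrN 𝔪 ψ hΘ0))
    (φβ : LevelHom F G (f0βE hpNl Δs ψ' Sy hrN 𝔪 ψ hΘ0)) :
    ∃ (ρ : Sy.𝕋 O →ₐ[O] Sy.𝕋 O)
      (eF : M0 Sy 𝔪 Δs ψ ≃ₗ[O] baseF O pr' hpr' p M lam')
      (eG : ↥(Base.locSub (actH (restrict Sy hrN) O (Theta Δs ψ' 0)) 𝔪) ≃ₗ[O]
        baseG O pr' hpr' M lam')
      (heF : ∀ t y, eF (act0 Sy 𝔪 Δs ψ t y) = actFix Sy pr' hpr' M lam' f ρ t (eF y))
      (heG : ∀ (t : Sy.𝕋 O) y,
        eG (Base.locSubAct (actH (restrict Sy hrN) O (Theta Δs ψ' 0)) 𝔪 t y)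
          = actFixG Sy pr' hpr' M lam' f ρ t (eG y))
      (ΦA : LevelHom (mapBase F (actFix Sy pr' hpr' M lam' f ρ) eF heF)
        (mapBase G (actFixG Sy pr' hpr' M lam' f ρ) eG heG) (f1 O pr' hpr' p hp' M hpM lam'))
      (ΦB : LevelHom (mapBase F (actFix Sy pr' hpr' M lam' f ρ) eF heF)
        (mapBase G (actFixG Sy pr' hpr' M lam' f ρ) eG heG) (f2 O pr' hpr' p hp' M hpM lam')),
      ΦA.f = φα.f ∧ ΦB.f = φβ.f ∧
      (∀ s, s ∉ Q → ρ (X s) = X s) ∧ lamBase.comp ρ = lamTop := by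
  have key := exists_baseEquiv_pair hpNl Sy hrN Δs ψ ψ' hΘ0 hℓ hr hsurj M hpM lamBase lamTop α β
    Q hN hQM hTW haway 𝔪 h𝔪 pr' hpr' hp' f hf hfs lam' hlam
  obtain ⟨ρ, eF, eG, heF, heG, hρ, hlamρ, sqα, sqβ⟩ := key
  refine ⟨ρ, eF, eG, heF, heG,
    mapBaseHom (M0' := baseF O pr' hpr' p M lam') (P0' := baseG O pr' hpr' M lam')
      (actFix Sy pr' hpr' M lam' f ρ) eF heF (actFixG Sy pr' hpr' M lam' f ρ) eG heG
      φα (f1 O pr' hpr' p hp' M hpM lam') sqα,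
    mapBaseHom (M0' := baseF O pr' hpr' p M lam') (P0' := baseG O pr' hpr' M lam')
      (actFix Sy pr' hpr' M lam' f ρ) eF heF (actFixG Sy pr' hpr' M lam' f ρ) eG heG
      φβ (f2 O pr' hpr' p hp' M hpM lam') sqβ, ?_, ?_, hρ, hlamρ⟩
  · rfl
  · rfl

end OneCall

end Fermat.Agent.GE8.RaiseP.G1.PairBase
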