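/-
GATE-E / RISK-4 PNEW-STAGE, leaf R4-G (g1), file 7 (helper15): **the `p`-new kernel of the big level
over the FIXED bases, ONE CALL, level-agnostic conclusion.**

`P2/MainPlug.exists_kerData_ann` (the two morphisms of levels `φα`, `φβ` out of
`Plug.bigLevel Sy 𝔪 H h j`, the stability `hK` of `K = ker (φα.f, φβ.f)` under `twP`, and (ANN) for
`K`) composed with `PairBase.exists_baseEquiv_pair` / `mapBaseHom` (the bases become the FIXED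
`baseF`, `baseG`, the base maps the FIXED `f1 = cores_p`, `f2 = cores_{p,δ}`).  The conclusion
mentions neither `coresq`, `castθ` nor `restrict`: only `Plug.bigLevel`, the fixed objects,
`heckeAlgebra (N₀ * p)` and `LamNew`.  Hence it can be stated at a VARIABLE level `L = Nl * p`
(`exists_fixedBase_ann_var`, by `subst`), as needed at `Q.Sy : Symbols Q.N`.
-/
import Fermat.Agent.GE8.RaiseP.P2.MainPlug
import Fermat.Agent.GE8.RaiseP.G1.PairBase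

set_option autoImplicit false
set_option linter.unusedSectionVars false
set_option linter.unusedVariables false
set_option linter.style.haveILetI false

noncomputable section

open scoped MatrixGroups TensorProduct
open CongruenceSubgroup Matrix Matrix.SpecialLinearGroup ModularCurve.Period CuspForm
open Fermat.Agent.S16_helper49 Fermat.Agent.GM.B Fermat.Agent.GM.Amalgam
open Fermat.Agent.GB.B3 Fermat.Agent.GB.B3.EisGamma0 Fermat.Agent.GB.B3.GamH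
open Fermat.Agent.GJ.J2.ZStruct Fermat.Agent.GJ.J2.Lat Fermat.Agent.GJ.J2.LatAct
open Fermat.Agent.GB.B4.Twist Fermat.Agent.GB.B4.Twist.Asm Fermat.Agent.GB.B4.Twist.Coeff
open Fermat.Agent.GB.B3.TWLevel Fermat.Agent.GB.B3.RealLevel
  Fermat.Agent.GB.B3.HeckeActH Fermat.Agent.GB.B3.TWChars Fermat.Agent.GB.B3.FinalTW
  Fermat.Agent.GB.B3.Tower Fermat.Agent.GB.B3.StepInst Fermat.Agent.GB.B3.LocTransport
  Fermat.Agent.GB.B3.Final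
open Fermat.Agent.GB.B7.UqSq Fermat.Agent.GB.B7.UqEquiv
open Fermat.Agent.GB.B8.LevelIter Fermat.Agent.GB.B8.LevelGen
open Fermat.Agent.GB.B4.Datum.ImageRing Fermat.Agent.GB.B10.L.ThetaNew
open Fermat.Agent.GE6.Inst.MapBase
open Fermat.Agent.GE8.RaiseP.NewLevel Fermat.Agent.GE8.RaiseP.NewAnn
open Fermat.Agent.GE8.RaiseP.P2.Pair Fermat.Agent.GE8.RaiseP.P2.Repin
  Fermat.Agent.GE8.RaiseP.P2.Main Fermat.Agent.GE8.RaiseP.P2.MainPlug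
open Fermat.Agent.GE8.RaiseP.G1.PairBase

namespace Fermat.Agent.GE8.RaiseP.G1.PairPlug

open MvPolynomial

/-- local instance (Prop-valued class) -/
local instance factPrimeOffPP {S : Set ℕ} (l : PrimesOff S) : Fact (l.1 : ℕ).Prime := ⟨l.1.2⟩

/-! ### at the literal level `Nl * p` -/

section Literal

variable {Nl p : ℕ} [NeZero Nl] [hpF : Fact p.Prime] [NeZero (Nl * p)] {Kk : ℕ}
  {r e N' N'₀ : ℕ → ℕ}
variable (Sy : Symbols (Nl * p)) (hpNl : ¬ p ∣ Nl) (hrN : ∀ j, Sy.r j ∣ Nl)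
variable {O : Type} [CommRing O] [IsDomain O] [IsPrincipalIdealRing O] [IsLocalRing O]
  [IsAdicComplete (IsLocalRing.maximalIdeal O) O] [Module.IsTorsionFree ℤ O]
variable (𝔪 : Ideal (Sy.𝕋 O)) [𝔪.IsMaximal]
variable (H : PrimeData (Nl * p) p Kk r e N') (H₀ : PrimeData Nl p Kk r e N'₀)
  {ϖ : O} {s0 : Sy.ι₁} (h : Plug.Hyp Sy 𝔪 p ϖ s0)
variable (j : ℕ)
  {N₀ : ℕ} [NeZero N₀] [NeZero (N₀ * p)] (hN₀ : N₀ * p = Nl * p * ∏ i : Fin j, r i)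
  (S : Finset ℕ) (hNS : ∀ q : ℕ, q.Prime → q ∣ N₀ * p → q ∈ S)
  (dℓ : PrimesOff (↑S : Set ℕ) → Gamma0 (Nl * p))
  (tw : ↥(heckeAlgebra (N₀ * p) 2 (↑S : Set ℕ)) →+*
    Module.End O ↥(parabolicHoms O (GammaH (Theta (Δs p e) H.psi j)) O))
  (htw : ∀ (l : PrimesOff (↑S : Set ℕ))
      (v : ↥(parabolicHoms O (GammaH (Theta (Δs p e) H.psi j)) O)),
    ((tw (formsGenS (N₀ * p) (↑S : Set ℕ) l) v :
        ↥(parabolicHoms O (GammaH (Theta (Δs p e) H.psi j)) O)) :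
        Additive (GammaH (Theta (Δs p e) H.psi j)) →+ O)
      = diaH (Theta (Δs p e) H.psi j) O (dℓ l) (GamH.TH (Theta (Δs p e) H.psi j) O
          (not_dvd_level (↑S : Set ℕ) (Fermat.Agent.GB.B10.L.Ann.hS_of_hNS S hNS)
            (Dvd.intro _ hN₀.symm) l)
          (v : Additive (GammaH (Theta (Δs p e) H.psi j)) →+ O)))
  (hpar : ∀ x : (Plug.bigLevel Sy 𝔪 H h j).M,
    (Plug.bigReal Sy 𝔪 H h j).ι x ∈ parabolicHoms O (GammaH (Theta (Δs p e) H.psi j)) O)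
  (twP : ↥(heckeAlgebra (N₀ * p) 2 (↑S : Set ℕ)) →+*
    Module.End O (Plug.bigLevel Sy 𝔪 H h j).M)
  (hιP : ∀ (t : ↥(heckeAlgebra (N₀ * p) 2 (↑S : Set ℕ))) (m : (Plug.bigLevel Sy 𝔪 H h j).M),
    (Plug.bigReal Sy 𝔪 H h j).ι (twP t m) =
      ((tw t ⟨(Plug.bigReal Sy 𝔪 H h j).ι m, hpar m⟩ :
        ↥(parabolicHoms O (GammaH (Theta (Δs p e) H.psi j)) O)) :
        Additive (GammaH (Theta (Δs p e) H.psi j)) →+ O))
variable {κ : Type} [Field κ] [Algebra O κ] [DecidableEq Sy.ι₁] [DecidableEq Sy.ι₂]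

include H₀ htw hιP hpNl hrN in
/-- **(g1) + (P2) + (P4), ONE CALL**: the `p`-new kernel `K` of the big level
`Plug.bigLevel Sy 𝔪 H h j`, as the kernel of a pair of morphisms of levels over the FIXED base maps
`f1`, `f2` between the FIXED bases `baseF`, `baseG`, stable under `twP`, with its (ANN). -/
theorem exists_fixedBase_ann [CharZero O] (hj : j ≤ Kk) (hp2 : p ≠ 2) (hpN₀ : ¬ p ∣ N₀)
    (hpS : p ∈ S)
    (hdℓ : ∀ (l : PrimesOff (↑S : Set ℕ)) (u : (ZMod (Nl * p))ˣ),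
      (u : ZMod (Nl * p)) = ((l.1 : ℕ) : ZMod (Nl * p)) →
      chi (Theta (Δs p e) H.psi j) (dℓ l) ^ 2 * Theta (Δs p e) H.psi j u = 1)
    (hℓ : Function.Injective Sy.ℓ) (hr : Function.Injective Sy.r)
    (hsurj : Function.Surjective (algebraMap O κ)) (M : ℕ) [NeZero M] (hpM : ¬ p ∣ M)
    (lamBase lamTop : Sy.𝕋 O →ₐ[O] κ) (α β : Sy.ι₁ ⊕ Sy.ι₂ → O) (Q : Finset (Sy.ι₁ ⊕ Sy.ι₂))
    (hN : Nl = M * ∏ s ∈ Q, prSy Sy s) (hQM : ∀ s ∈ Q, ¬ prSy Sy s ∣ M)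
    (hTW : ∀ s ∈ Q, TWCond (prSy Sy) lamBase lamTop α β s)
    (haway : ∀ s, s ∉ Q → lamTop (X s) = lamBase (X s))
    (h𝔪 : 𝔪 = RingHom.ker (lamTop : Sy.𝕋 O →+* κ))
    {σ' : Type} (pr' : σ' → ℕ) (hpr' : ∀ s, (pr' s).Prime) (hp' : ∀ s, pr' s ≠ p)
    (f : Sy.ι₁ ⊕ Sy.ι₂ → σ') (hf : ∀ s, pr' (f s) = prSy Sy s) (hfs : Function.Surjective f)
    (lam' : MvPolynomial σ' O →ₐ[O] κ)
    (hlam : lamBase = lam'.comp (rename f : Sy.𝕋 O →ₐ[O] MvPolynomial σ' O)) :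
    ∃ (u : M0 Sy 𝔪 (Δs p e) H.psi ≃ₗ[O] M0 Sy 𝔪 (Δs p e) H.psi)
      (hu : ∀ t x, u (act0 Sy 𝔪 (Δs p e) H.psi t x) = act0 Sy 𝔪 (Δs p e) H.psi t (u x))
      (ρ : Sy.𝕋 O →ₐ[O] Sy.𝕋 O)
      (eF : M0 Sy 𝔪 (Δs p e) H.psi ≃ₗ[O] baseF O pr' hpr' p M lam')
      (heF : ∀ t y, eF (act0 Sy 𝔪 (Δs p e) H.psi t y)
        = actFix Sy pr' hpr' M lam' f ρ t (eF y))
      (GG : FreeLevel O (Sy.𝕋 O) (baseG O pr' hpr' M lam') (actFixG Sy pr' hpr' M lam' f ρ) j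
        (Nfun p e j))
      (ΦA : LevelHom (mapBase (twistπ (Plug.bigLevel Sy 𝔪 H h j) u hu)
          (actFix Sy pr' hpr' M lam' f ρ) eF heF) GG (f1 O pr' hpr' p hp' M hpM lam'))
      (ΦB : LevelHom (mapBase (twistπ (Plug.bigLevel Sy 𝔪 H h j) u hu)
          (actFix Sy pr' hpr' M lam' f ρ) eF heF) GG (f2 O pr' hpr' p hp' M hpM lam'))
      (K : Submodule O (Plug.bigLevel Sy 𝔪 H h j).M)
      (hKeq : K = LinearMap.ker (LevelHom.prod GG GG ΦA ΦB).f)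
      (hK : ∀ (t : ↥(heckeAlgebra (N₀ * p) 2 (↑S : Set ℕ))), ∀ x ∈ K, twP t x ∈ K),
      (∀ s, s ∉ Q → ρ (X s) = X s) ∧ lamBase.comp ρ = lamTop ∧
      ∀ t₀ : O ⊗[ℤ] ↥(heckeAlgebra (N₀ * p) 2 (↑S : Set ℕ)),
        (∀ (a : O),
          ∀ x ∈ (LamNew hpN₀ : AddSubgroup
            (Fermat.Agent.GB.B10.KumLevelHecke.levelData p (N₀ * p) hpS hNS).Λ),
          (Fermat.Agent.GB.B10.KumLevelHecke.levelData p (N₀ * p) hpS hNS).heckeTensor O t₀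
            (a ⊗ₜ[ℤ] x) = 0) →
        ∀ m : K, twO O (restrictTw twP K hK) t₀ m = 0 := by
  have hdata := exists_kerData_ann Sy hpNl hrN 𝔪 H H₀ h j hN₀ S hNS dℓ tw htw hpar twP hιP hj
    hp2 hpN₀ hpS hdℓ
  obtain ⟨u, hu, G, R', φα, φβ, hK, hα, hβ, hann⟩ := hdata
  have key := exists_baseEquiv_pair hpNl Sy hrN (Δs p e) H.psi H₀.psi (Theta_eq_infl H H₀ 0)
    hℓ hr hsurj M hpM lamBase lamTop α β Q hN hQM hTW haway 𝔪 h𝔪 pr' hpr' hp' f hf hfs lam' hlam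
  obtain ⟨ρ, eF, eG, heF, heG, hρ, hlamρ, sqα, sqβ⟩ := key
  letI iG : AddCommGroup G.M := FreeLevel.instAddCommGroup G
  letI mG : Module O G.M := FreeLevel.instModule G
  refine ⟨u, hu, ρ, eF, heF, mapBase (M0' := baseG O pr' hpr' M lam') G
    (actFixG Sy pr' hpr' M lam' f ρ) eG heG, ?_⟩
  refine ⟨mapBaseHom (M0' := baseF O pr' hpr' p M lam') (P0' := baseG O pr' hpr' M lam')
      (actFix Sy pr' hpr' M lam' f ρ) eF heF (actFixG Sy pr' hpr' M lam' f ρ) eG heG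
      φα (f1 O pr' hpr' p hp' M hpM lam') sqα, ?_⟩
  refine ⟨mapBaseHom (M0' := baseF O pr' hpr' p M lam') (P0' := baseG O pr' hpr' M lam')
      (actFix Sy pr' hpr' M lam' f ρ) eF heF (actFixG Sy pr' hpr' M lam' f ρ) eG heG
      φβ (f2 O pr' hpr' p hp' M hpM lam') sqβ, ?_⟩
  exact ⟨(LinearMap.ker (LevelHom.prod G G φα φβ).f :
      Submodule O (Plug.bigLevel Sy 𝔪 H h j).M), rfl, hK, hρ, hlamρ, hann⟩

end Literal

/-! ### at a variable level `L = Nl * p` -/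

/-- `PairBase.actFix` at any level -/
noncomputable abbrev actFixL {L : ℕ} (Sy : Symbols L) {O : Type} [CommRing O] {κ : Type} [Field κ]
    [Algebra O κ] {σ' : Type} (pr' : σ' → ℕ) (hpr' : ∀ s, (pr' s).Prime) (p M : ℕ)
    (lam' : MvPolynomial σ' O →ₐ[O] κ) (f : Sy.ι₁ ⊕ Sy.ι₂ → σ') (ρ : Sy.𝕋 O →ₐ[O] Sy.𝕋 O) :
    Sy.𝕋 O →ₐ[O] Module.End O (baseF O pr' hpr' p M lam') :=
  (actBF O pr' hpr' p M lam').comp
    ((rename f : Sy.𝕋 O →ₐ[O] MvPolynomial σ' O).comp ρ)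

/-- `PairBase.actFixG` at any level -/
noncomputable abbrev actFixGL {L : ℕ} (Sy : Symbols L) {O : Type} [CommRing O] {κ : Type}
    [Field κ] [Algebra O κ] {σ' : Type} (pr' : σ' → ℕ) (hpr' : ∀ s, (pr' s).Prime) (M : ℕ)
    (lam' : MvPolynomial σ' O →ₐ[O] κ) (f : Sy.ι₁ ⊕ Sy.ι₂ → σ') (ρ : Sy.𝕋 O →ₐ[O] Sy.𝕋 O) :
    Sy.𝕋 O →ₐ[O] Module.End O (baseG O pr' hpr' M lam') :=
  (actBG O pr' hpr' M lam').comp
    ((rename f : Sy.𝕋 O →ₐ[O] MvPolynomial σ' O).comp ρ)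

section Var

variable {L Nl p : ℕ} [NeZero Nl] [hpF : Fact p.Prime] [NeZero L] {Kk : ℕ}
  {r e N' N'₀ : ℕ → ℕ}
variable (hL : L = Nl * p) (Sy : Symbols L) (hpNl : ¬ p ∣ Nl) (hrN : ∀ j, Sy.r j ∣ Nl)
variable {O : Type} [CommRing O] [IsDomain O] [IsPrincipalIdealRing O] [IsLocalRing O]
  [IsAdicComplete (IsLocalRing.maximalIdeal O) O] [Module.IsTorsionFree ℤ O]
variable (𝔪 : Ideal (Sy.𝕋 O)) [𝔪.IsMaximal]
variable (H : PrimeData L p Kk r e N') (H₀ : PrimeData Nl p Kk r e N'₀)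
  {ϖ : O} {s0 : Sy.ι₁} (h : Plug.Hyp Sy 𝔪 p ϖ s0)
variable (j : ℕ)
  {N₀ : ℕ} [NeZero N₀] [NeZero (N₀ * p)] (hN₀ : N₀ * p = L * ∏ i : Fin j, r i)
  (S : Finset ℕ) (hNS : ∀ q : ℕ, q.Prime → q ∣ N₀ * p → q ∈ S)
  (dℓ : PrimesOff (↑S : Set ℕ) → Gamma0 L)
  (tw : ↥(heckeAlgebra (N₀ * p) 2 (↑S : Set ℕ)) →+*
    Module.End O ↥(parabolicHoms O (GammaH (Theta (Δs p e) H.psi j)) O))
  (htw : ∀ (l : PrimesOff (↑S : Set ℕ))
      (v : ↥(parabolicHoms O (GammaH (Theta (Δs p e) H.psi j)) O)),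
    ((tw (formsGenS (N₀ * p) (↑S : Set ℕ) l) v :
        ↥(parabolicHoms O (GammaH (Theta (Δs p e) H.psi j)) O)) :
        Additive (GammaH (Theta (Δs p e) H.psi j)) →+ O)
      = diaH (Theta (Δs p e) H.psi j) O (dℓ l) (GamH.TH (Theta (Δs p e) H.psi j) O
          (not_dvd_level (↑S : Set ℕ) (Fermat.Agent.GB.B10.L.Ann.hS_of_hNS S hNS)
            (Dvd.intro _ hN₀.symm) l)
          (v : Additive (GammaH (Theta (Δs p e) H.psi j)) →+ O)))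
  (hpar : ∀ x : (Plug.bigLevel Sy 𝔪 H h j).M,
    (Plug.bigReal Sy 𝔪 H h j).ι x ∈ parabolicHoms O (GammaH (Theta (Δs p e) H.psi j)) O)
  (twP : ↥(heckeAlgebra (N₀ * p) 2 (↑S : Set ℕ)) →+*
    Module.End O (Plug.bigLevel Sy 𝔪 H h j).M)
  (hιP : ∀ (t : ↥(heckeAlgebra (N₀ * p) 2 (↑S : Set ℕ))) (m : (Plug.bigLevel Sy 𝔪 H h j).M),
    (Plug.bigReal Sy 𝔪 H h j).ι (twP t m) =
      ((tw t ⟨(Plug.bigReal Sy 𝔪 H h j).ι m, hpar m⟩ :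
        ↥(parabolicHoms O (GammaH (Theta (Δs p e) H.psi j)) O)) :
        Additive (GammaH (Theta (Δs p e) H.psi j)) →+ O))
variable {κ : Type} [Field κ] [Algebra O κ] [DecidableEq Sy.ι₁] [DecidableEq Sy.ι₂]

include hL H₀ htw hιP hpNl hrN in
/-- **`exists_fixedBase_ann` at a VARIABLE level `L = Nl * p`** (e.g. `Q.Sy : Symbols Q.N`): the
statement VERBATIM with the literal `Nl * p` replaced by `L` everywhere. -/
theorem exists_fixedBase_ann_var [CharZero O] (hj : j ≤ Kk) (hp2 : p ≠ 2) (hpN₀ : ¬ p ∣ N₀)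
    (hpS : p ∈ S)
    (hdℓ : ∀ (l : PrimesOff (↑S : Set ℕ)) (u : (ZMod L)ˣ),
      (u : ZMod L) = ((l.1 : ℕ) : ZMod L) →
      chi (Theta (Δs p e) H.psi j) (dℓ l) ^ 2 * Theta (Δs p e) H.psi j u = 1)
    (hℓ : Function.Injective Sy.ℓ) (hr : Function.Injective Sy.r)
    (hsurj : Function.Surjective (algebraMap O κ)) (M : ℕ) [NeZero M] (hpM : ¬ p ∣ M)
    (lamBase lamTop : Sy.𝕋 O →ₐ[O] κ) (α β : Sy.ι₁ ⊕ Sy.ι₂ → O) (Q : Finset (Sy.ι₁ ⊕ Sy.ι₂))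
    (hN : Nl = M * ∏ s ∈ Q, prSy Sy s) (hQM : ∀ s ∈ Q, ¬ prSy Sy s ∣ M)
    (hTW : ∀ s ∈ Q, TWCond (prSy Sy) lamBase lamTop α β s)
    (haway : ∀ s, s ∉ Q → lamTop (X s) = lamBase (X s))
    (h𝔪 : 𝔪 = RingHom.ker (lamTop : Sy.𝕋 O →+* κ))
    {σ' : Type} (pr' : σ' → ℕ) (hpr' : ∀ s, (pr' s).Prime) (hp' : ∀ s, pr' s ≠ p)
    (f : Sy.ι₁ ⊕ Sy.ι₂ → σ') (hf : ∀ s, pr' (f s) = prSy Sy s) (hfs : Function.Surjective f)
    (lam' : MvPolynomial σ' O →ₐ[O] κ)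
    (hlam : lamBase = lam'.comp (rename f : Sy.𝕋 O →ₐ[O] MvPolynomial σ' O)) :
    ∃ (u : M0 Sy 𝔪 (Δs p e) H.psi ≃ₗ[O] M0 Sy 𝔪 (Δs p e) H.psi)
      (hu : ∀ t x, u (act0 Sy 𝔪 (Δs p e) H.psi t x) = act0 Sy 𝔪 (Δs p e) H.psi t (u x))
      (ρ : Sy.𝕋 O →ₐ[O] Sy.𝕋 O)
      (eF : M0 Sy 𝔪 (Δs p e) H.psi ≃ₗ[O] baseF O pr' hpr' p M lam')
      (heF : ∀ t y, eF (act0 Sy 𝔪 (Δs p e) H.psi t y)
        = actFixL Sy pr' hpr' p M lam' f ρ t (eF y))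
      (GG : FreeLevel O (Sy.𝕋 O) (baseG O pr' hpr' M lam') (actFixGL Sy pr' hpr' M lam' f ρ) j
        (Nfun p e j))
      (ΦA : LevelHom (mapBase (twistπ (Plug.bigLevel Sy 𝔪 H h j) u hu)
          (actFixL Sy pr' hpr' p M lam' f ρ) eF heF) GG (f1 O pr' hpr' p hp' M hpM lam'))
      (ΦB : LevelHom (mapBase (twistπ (Plug.bigLevel Sy 𝔪 H h j) u hu)
          (actFixL Sy pr' hpr' p M lam' f ρ) eF heF) GG (f2 O pr' hpr' p hp' M hpM lam'))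
      (K : Submodule O (Plug.bigLevel Sy 𝔪 H h j).M)
      (hKeq : K = LinearMap.ker (LevelHom.prod GG GG ΦA ΦB).f)
      (hK : ∀ (t : ↥(heckeAlgebra (N₀ * p) 2 (↑S : Set ℕ))), ∀ x ∈ K, twP t x ∈ K),
      (∀ s, s ∉ Q → ρ (X s) = X s) ∧ lamBase.comp ρ = lamTop ∧
      ∀ t₀ : O ⊗[ℤ] ↥(heckeAlgebra (N₀ * p) 2 (↑S : Set ℕ)),
        (∀ (a : O),
          ∀ x ∈ (LamNew hpN₀ : AddSubgroup
            (Fermat.Agent.GB.B10.KumLevelHecke.levelData p (N₀ * p) hpS hNS).Λ),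
          (Fermat.Agent.GB.B10.KumLevelHecke.levelData p (N₀ * p) hpS hNS).heckeTensor O t₀
            (a ⊗ₜ[ℤ] x) = 0) →
        ∀ m : K, twO O (restrictTw twP K hK) t₀ m = 0 := by
  subst hL
  exact exists_fixedBase_ann Sy hpNl hrN 𝔪 H H₀ h j hN₀ S hNS dℓ tw htw hpar twP hιP hj hp2 hpN₀
    hpS hdℓ hℓ hr hsurj M hpM lamBase lamTop α β Q hN hQM hTW haway h𝔪 pr' hpr' hp' f hf hfs
    lam' hlam

end Var

end Fermat.Agent.GE8.RaiseP.G1.PairPlug
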