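/-
GATE-E / RISK-4 PNEW-STAGE, leaf R4-G (g1), file 8 (helper15): **`PairPlug.exists_fixedBase_ann_var`
AT THE OBJECTS OF RECORD of one Taylor–Wiles set** (the `p`-new twin of
`GE6/Inst/FreeLevelInst` PART B `exists_baseE`).

`P : Pkg p W hcard₁ hker (M * p) A`, `¬ p ∣ M`, `Q : G1.TWSet P g n`.  The B3 level is
`Q.N = (M * p) * ∏ qv = NlQ Q * p` with `NlQ Q := M * ∏ qv` (`p ∤ NlQ Q`); the symbols `Q.Sy` have no
`U`-symbol at `p`.

* `NlQ`, `hLQ`, `hrNQ`, `hpNlQ`, `hNQ`, `hQMQ` : the level without `p` and the seam binders at the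
  base level `M` (from `Q.hN`, `Q.hQM` at `M * p`);
* `cofRev₀`, **`primeDataE₀ Q E hE`** : the prime data at the level `NlQ Q`, SAME primes `rRev Q`
  and exponents `eRev E` as `FreeLevelInst.primeDataE Q E hE`;
* **`exists_fixedBase_ann_TW`** : `PairPlug.exists_fixedBase_ann_var` at `Sy := Q.Sy`, `𝔪 := Q.𝔪`,
  `H := primeDataE Q E hE`, `H₀ := primeDataE₀ Q E hE`, `h := Q.hyp hp3`, `σ' := I0 W p (M * p)`,
  `pr' := pr0 W p (M * p)`, `f := sigQ Q`, `lam' := lam0 P`: EVERY seam binder discharged from `Q`;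
  the remaining binders are the G2 block (`j ≤ g`, forms level `N₀ * p`, `S`, `dℓ`, `tw`, `twP`, …).
  The conclusion is that of `exists_fixedBase_ann_var` VERBATIM at
  `baseF P.O (pr0 W p (M*p)) _ p M (lam0 P)`, `baseG …`, `f1 …`, `f2 …` (the `MF P0 f₁ f₂` of
  `Hf0Pkg.surjective_f1_f2_pkg`).
-/
import Fermat.Agent.GE8.RaiseP.G1.PairPlug
import Fermat.Agent.GE8.RaiseP.Hf0Pkg
import Fermat.Agent.GE6.Inst.FreeLevelInst

set_option autoImplicit false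
set_option linter.unusedSectionVars false
set_option linter.unusedVariables false
set_option linter.style.haveILetI false

noncomputable section

open scoped MatrixGroups TensorProduct
open CongruenceSubgroup Matrix Matrix.SpecialLinearGroup ModularCurve.Period CuspForm
open Fermat.Agent.S16_helper49 Fermat.Agent.GM.B Fermat.Agent.GM.Amalgam
open Fermat.Agent.GB.B3 Fermat.Agent.GB.B3.EisGamma0 Fermat.Agent.GB.B3.GamH
open Fermat.Agent.GJ.J2.ZStruct Fermat.Agent.GJ.J2.Lat Fermat.Agent.GJ.J2.LatAct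
open Fermat.Agent.GB.B4.Twist Fermat.Agent.GB.B4.Twist.Asm Fermat.Agent.GB.B4.Twist.Coeff
open Fermat.Agent.GB.B3.TWLevel Fermat.Agent.GB.B3.RealLevel
  Fermat.Agent.GB.B3.HeckeActH Fermat.Agent.GB.B3.TWChars Fermat.Agent.GB.B3.FinalTW
  Fermat.Agent.GB.B3.Tower Fermat.Agent.GB.B3.StepInst Fermat.Agent.GB.B3.LocTransport
  Fermat.Agent.GB.B3.Final
open Fermat.Agent.GB.B7.UqSq Fermat.Agent.GB.B7.UqEquiv
open Fermat.Agent.GB.B8.LevelIter Fermat.Agent.GB.B8.LevelGen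
open Fermat.Agent.GB.B4.Datum.ImageRing Fermat.Agent.GB.B10.L.ThetaNew
open Fermat.Agent.GE6.Inst.MapBase Fermat.Agent.GE6.Inst.FreeLevelInst
open Fermat.Agent.GE8.RaiseP.NewLevel Fermat.Agent.GE8.RaiseP.NewAnn
open Fermat.Agent.GE8.RaiseP.P2.Pair Fermat.Agent.GE8.RaiseP.P2.Repin
  Fermat.Agent.GE8.RaiseP.P2.Main Fermat.Agent.GE8.RaiseP.P2.MainPlug
open Fermat.Agent.GE8.RaiseP.G1.PairBase Fermat.Agent.GE8.RaiseP.G1.PairPlug
open Fermat.Agent.GE8.RaiseP.Hf0Pkg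
open Fermat.Agent.GB.Setup.SetupPkg Fermat.Agent.GB.B9.ProviderFlat.G1
  Fermat.Agent.GB.B9.ProviderFlat.H1

namespace Fermat.Agent.GE8.RaiseP.G1.PairTW

open MvPolynomial

/-- local instance (Prop-valued class) -/
local instance factPrimeOffPT {S : Set ℕ} (l : PrimesOff S) : Fact (l.1 : ℕ).Prime := ⟨l.1.2⟩

variable {p : ℕ} [hpF : Fact p.Prime] {W : WeierstrassCurve ℤ}
  {hcard₁ : Nat.card (Submodule.torsionBy ℤ
    ((W.map (Int.castRingHom ℚ)).toAffine.baseChange (AlgebraicClosure ℚ)).Point p) = p ^ 2}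
  {hker : GaloisFactorsThroughFiniteLevel
    (WeierstrassCurve.Affine.Point.galoisRepModuleEnd (K := AlgebraicClosure ℚ) ℚ
      (W.map (Int.castRingHom ℚ)) p)}
  {M A : ℕ} {P : Pkg p W hcard₁ hker (M * p) A} {g n : ℕ} (Q : TWSet P g n)

/-! ### the level without `p` -/

/-- the Taylor–Wiles level without `p`: `M * ∏ qv` -/
def NlQ : ℕ := M * ∏ i, Q.qv i

theorem NlQ_def : NlQ Q = M * ∏ i, Q.qv i := rfl

/-- `Q.N = NlQ Q * p` -/
theorem hLQ : Q.N = NlQ Q * p := by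
  rw [NlQ_def, TWSet.N, mul_right_comm]

/-- the `U`-primes (the Taylor–Wiles primes) divide `NlQ Q` -/
theorem hrNQ : ∀ j, Q.Sy.r j ∣ NlQ Q := fun j =>
  Dvd.dvd.mul_left (Finset.dvd_prod_of_mem Q.qv (Finset.mem_univ (Q.iOf j))) _

include Q in
theorem M_ne_zero : M ≠ 0 := fun h0 => P.hM (by rw [h0, zero_mul])

theorem NlQ_ne_zero : NlQ Q ≠ 0 :=
  Nat.mul_ne_zero (M_ne_zero Q) (Finset.prod_ne_zero_iff.mpr fun i _ => (Q.prime i).ne_zero)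

/-- `p ∤ NlQ Q` -/
theorem hpNlQ (hpM : ¬ p ∣ M) : ¬ p ∣ NlQ Q := by
  intro h
  rcases (hpF.out.dvd_mul).mp h with h1 | h1
  · exact hpM h1
  · obtain ⟨i, -, hi⟩ := (Prime.dvd_finsetProd_iff hpF.out.prime _).mp h1
    exact (Q.good i).2.2 ((Nat.prime_dvd_prime_iff_eq hpF.out (Q.prime i)).mp hi).symm

/-- `hN` at the base level `M` -/
theorem hNQ : NlQ Q = M * ∏ s ∈ Q.Qset, prSy Q.Sy s := by
  rw [NlQ_def, TWSet.Qset, Finset.prod_map]
  rfl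

/-- `hQM` at the base level `M` -/
theorem hQMQ : ∀ s ∈ Q.Qset, ¬ prSy Q.Sy s ∣ M := fun s hs h =>
  Q.hQM s hs (Dvd.dvd.mul_right h p)

/-! ### the prime data at `NlQ Q` -/

/-- the cofactors at the level without `p` -/
def cofRev₀ : ℕ → ℕ := cof M (fun i : Fin g => Q.qv (Fin.rev i)) (Fin.elim0 : Fin 0 → ℕ)

theorem bigN_rev₀ : bigN M (fun i : Fin g => Q.qv (Fin.rev i)) = NlQ Q := by
  rw [NlQ_def]
  show M * ∏ i : Fin g, Q.qv (Fin.rev i) = M * ∏ i, Q.qv i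
  congr 1
  exact Equiv.prod_comp Fin.revPerm Q.qv

/-- **the prime data at the level `NlQ Q` without `p`**: same primes `rRev Q`, same exponents
`eRev E` as `FreeLevelInst.primeDataE Q E hE`. -/
theorem primeDataE₀ (E : Fin g → ℕ) (hE : ∀ j, p ^ E j ∣ Q.qv j - 1) :
    PrimeData (NlQ Q) p g (rRev Q) (eRev E) (cofRev₀ Q) := by
  have H₀ : PrimeData (bigN M (fun i : Fin g => Q.qv (Fin.rev i))) p (g + 0)
      (seq (fun i : Fin g => Q.qv (Fin.rev i)) (Fin.elim0 : Fin 0 → ℕ))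
      (seq (fun _ : Fin g => 0) (Fin.elim0 : Fin 0 → ℕ))
      (cof M (fun i : Fin g => Q.qv (Fin.rev i)) (Fin.elim0 : Fin 0 → ℕ)) :=
    Fermat.Agent.GB.B9.ProviderFlat.H1.primeData (p := p) (n := 0) (ef := (Fin.elim0 : Fin 0 → ℕ))
      (fun a b h => Fin.rev_injective (Q.inj h)) (fun i => Q.prime _)
      (fun i h => (Q.good _).2.1 (Dvd.dvd.mul_right h p))
      (fun i => by rw [pow_zero]; exact one_dvd _)
      (fun a => a.elim0) (fun a => a.elim0) (fun a => a.elim0) (fun a => a.elim0)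
      (fun a => a.elim0)
  refine ⟨H₀.prime, fun i hi => (bigN_rev₀ Q).symm.trans (H₀.fact i hi), H₀.cop, ?_, H₀.inj, ?_⟩
  · intro i hi
    rw [eRev_lt E hi, rRev_lt Q hi]
    exact hE _
  · intro i hi
    exact seq_ge _ _ (by omega)

/-! ### the `p`-new kernel at `Q`, over the fixed bases -/

section Main

variable [NeZero M] (hp3 : p ≠ 3) (E : Fin g → ℕ) (hE : ∀ j, p ^ E j ∣ Q.qv j - 1)
variable (j : ℕ)
  {N₀ : ℕ} [NeZero N₀] [NeZero (N₀ * p)] (hN₀ : N₀ * p = Q.N * ∏ i : Fin j, rRev Q i)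
  (S : Finset ℕ) (hNS : ∀ q : ℕ, q.Prime → q ∣ N₀ * p → q ∈ S)
  (dℓ : PrimesOff (↑S : Set ℕ) → Gamma0 Q.N)
  (tw : ↥(heckeAlgebra (N₀ * p) 2 (↑S : Set ℕ)) →+*
    Module.End P.O ↥(parabolicHoms P.O
      (GammaH (Theta (Δs p (eRev E)) (primeDataE Q E hE).psi j)) P.O))
  (htw : ∀ (l : PrimesOff (↑S : Set ℕ))
      (v : ↥(parabolicHoms P.O (GammaH (Theta (Δs p (eRev E)) (primeDataE Q E hE).psi j)) P.O)),
    ((tw (formsGenS (N₀ * p) (↑S : Set ℕ) l) v :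
        ↥(parabolicHoms P.O (GammaH (Theta (Δs p (eRev E)) (primeDataE Q E hE).psi j)) P.O)) :
        Additive (GammaH (Theta (Δs p (eRev E)) (primeDataE Q E hE).psi j)) →+ P.O)
      = diaH (Theta (Δs p (eRev E)) (primeDataE Q E hE).psi j) P.O (dℓ l)
          (GamH.TH (Theta (Δs p (eRev E)) (primeDataE Q E hE).psi j) P.O
            (not_dvd_level (↑S : Set ℕ) (Fermat.Agent.GB.B10.L.Ann.hS_of_hNS S hNS)
              (Dvd.intro _ hN₀.symm) l)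
            (v : Additive (GammaH (Theta (Δs p (eRev E)) (primeDataE Q E hE).psi j)) →+ P.O)))
  (hpar : ∀ x : (Plug.bigLevel Q.Sy Q.𝔪 (primeDataE Q E hE) (Q.hyp hp3) j).M,
    (Plug.bigReal Q.Sy Q.𝔪 (primeDataE Q E hE) (Q.hyp hp3) j).ι x
      ∈ parabolicHoms P.O (GammaH (Theta (Δs p (eRev E)) (primeDataE Q E hE).psi j)) P.O)
  (twP : ↥(heckeAlgebra (N₀ * p) 2 (↑S : Set ℕ)) →+*
    Module.End P.O (Plug.bigLevel Q.Sy Q.𝔪 (primeDataE Q E hE) (Q.hyp hp3) j).M)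
  (hιP : ∀ (t : ↥(heckeAlgebra (N₀ * p) 2 (↑S : Set ℕ)))
      (m : (Plug.bigLevel Q.Sy Q.𝔪 (primeDataE Q E hE) (Q.hyp hp3) j).M),
    (Plug.bigReal Q.Sy Q.𝔪 (primeDataE Q E hE) (Q.hyp hp3) j).ι (twP t m) =
      ((tw t ⟨(Plug.bigReal Q.Sy Q.𝔪 (primeDataE Q E hE) (Q.hyp hp3) j).ι m, hpar m⟩ :
        ↥(parabolicHoms P.O (GammaH (Theta (Δs p (eRev E)) (primeDataE Q E hE).psi j)) P.O)) :
        Additive (GammaH (Theta (Δs p (eRev E)) (primeDataE Q E hE).psi j)) →+ P.O))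

include htw hιP in
/-- **the `p`-new kernel of the big level at a Taylor–Wiles set `Q`, over the FIXED bases**:
`PairPlug.exists_fixedBase_ann_var` with every seam binder discharged from `Q`. -/
theorem exists_fixedBase_ann_TW (hpM : ¬ p ∣ M) (hj : j ≤ g) (hpN₀ : ¬ p ∣ N₀) (hpS : p ∈ S)
    (hdℓ : ∀ (l : PrimesOff (↑S : Set ℕ)) (u : (ZMod Q.N)ˣ),
      (u : ZMod Q.N) = ((l.1 : ℕ) : ZMod Q.N) →
      chi (Theta (Δs p (eRev E)) (primeDataE Q E hE).psi j) (dℓ l) ^ 2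
        * Theta (Δs p (eRev E)) (primeDataE Q E hE).psi j u = 1) :
    ∃ (u : M0 Q.Sy Q.𝔪 (Δs p (eRev E)) (primeDataE Q E hE).psi
          ≃ₗ[P.O] M0 Q.Sy Q.𝔪 (Δs p (eRev E)) (primeDataE Q E hE).psi)
      (hu : ∀ t x, u (act0 Q.Sy Q.𝔪 (Δs p (eRev E)) (primeDataE Q E hE).psi t x)
        = act0 Q.Sy Q.𝔪 (Δs p (eRev E)) (primeDataE Q E hE).psi t (u x))
      (ρ : Q.Sy.𝕋 P.O →ₐ[P.O] Q.Sy.𝕋 P.O)
      (eF : M0 Q.Sy Q.𝔪 (Δs p (eRev E)) (primeDataE Q E hE).psi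
          ≃ₗ[P.O] baseF P.O (pr0 W p (M * p)) (pr0_prime W p (M * p)) p M (lam0 P))
      (heF : ∀ t y, eF (act0 Q.Sy Q.𝔪 (Δs p (eRev E)) (primeDataE Q E hE).psi t y)
        = actFixL Q.Sy (pr0 W p (M * p)) (pr0_prime W p (M * p)) p M (lam0 P) (sigQ Q) ρ t (eF y))
      (GG : FreeLevel P.O (Q.Sy.𝕋 P.O)
        (baseG P.O (pr0 W p (M * p)) (pr0_prime W p (M * p)) M (lam0 P))
        (actFixGL Q.Sy (pr0 W p (M * p)) (pr0_prime W p (M * p)) M (lam0 P) (sigQ Q) ρ) j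
        (Nfun p (eRev E) j))
      (ΦA : LevelHom (mapBase
          (twistπ (Plug.bigLevel Q.Sy Q.𝔪 (primeDataE Q E hE) (Q.hyp hp3) j) u hu)
          (actFixL Q.Sy (pr0 W p (M * p)) (pr0_prime W p (M * p)) p M (lam0 P) (sigQ Q) ρ)
          eF heF) GG
        (f1 P.O (pr0 W p (M * p)) (pr0_prime W p (M * p)) p (pr0_ne_p (M * p)) M hpM (lam0 P)))
      (ΦB : LevelHom (mapBase
          (twistπ (Plug.bigLevel Q.Sy Q.𝔪 (primeDataE Q E hE) (Q.hyp hp3) j) u hu)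
          (actFixL Q.Sy (pr0 W p (M * p)) (pr0_prime W p (M * p)) p M (lam0 P) (sigQ Q) ρ)
          eF heF) GG
        (f2 P.O (pr0 W p (M * p)) (pr0_prime W p (M * p)) p (pr0_ne_p (M * p)) M hpM (lam0 P)))
      (K : Submodule P.O (Plug.bigLevel Q.Sy Q.𝔪 (primeDataE Q E hE) (Q.hyp hp3) j).M)
      (hKeq : K = LinearMap.ker (LevelHom.prod GG GG ΦA ΦB).f)
      (hK : ∀ (t : ↥(heckeAlgebra (N₀ * p) 2 (↑S : Set ℕ))), ∀ x ∈ K, twP t x ∈ K),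
      (∀ s, s ∉ Q.Qset → ρ (X s) = X s) ∧ Q.lamBase.comp ρ = Q.lamTop ∧
      ∀ t₀ : P.O ⊗[ℤ] ↥(heckeAlgebra (N₀ * p) 2 (↑S : Set ℕ)),
        (∀ (a : P.O),
          ∀ x ∈ (LamNew hpN₀ : AddSubgroup
            (Fermat.Agent.GB.B10.KumLevelHecke.levelData p (N₀ * p) hpS hNS).Λ),
          (Fermat.Agent.GB.B10.KumLevelHecke.levelData p (N₀ * p) hpS hNS).heckeTensor P.O t₀
            (a ⊗ₜ[ℤ] x) = 0) →
        ∀ m : K, twO P.O (restrictTw twP K hK) t₀ m = 0 := by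
  classical
  haveI : NeZero (NlQ Q) := ⟨NlQ_ne_zero Q⟩
  exact exists_fixedBase_ann_var (hLQ Q) Q.Sy (hpNlQ Q hpM) (hrNQ Q) Q.𝔪 (primeDataE Q E hE)
    (primeDataE₀ Q E hE) (Q.hyp hp3) j hN₀ S hNS dℓ tw htw hpar twP hιP hj P.hp2 hpN₀ hpS hdℓ
    Q.injective_ℓ Q.injective_r Q.hsurj M hpM Q.lamBase Q.lamTop Q.αl Q.βl Q.Qset (hNQ Q)
    (hQMQ Q) Q.hTW Q.haway Q.h𝔪 (pr0 W p (M * p)) (pr0_prime W p (M * p)) (pr0_ne_p (M * p))
    (sigQ Q) (pr0_sigQ Q) (sigQ_surjective Q) (lam0 P) (lamBase_eq Q)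

end Main

end Fermat.Agent.GE8.RaiseP.G1.PairTW

end
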